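import Fermat.Agent.DeligneSerre.Local.Defs
import Fermat.Agent.Gal.Places

/-!
# Roots of series with bounded denominators

An `n`-th root of a bounded series is bounded, provided the divisibilities given by `G` hold.
The bounded series form the localisation of the factorial ring `O[[X]]` at `X` and `π`.
-/

set_option autoImplicit false

noncomputable section

namespace Fermat.Agent.DeligneSerre

open PowerSeries

/-- A divisor of the `n`-th powers which are combined to `D` is an `n`-th power up to a divisor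
of `D`. -/
theorem exists_pow_eq_mul_of_dvd {R : Type} [CommRing R] [IsDomain R]
    [UniqueFactorizationMonoid R] {n : ℕ} (_hn : n ≠ 0) {r : ℕ} (hr : 0 < r) (A D : R)
    (G T z : Fin r → R) (hT : ∀ i, T i ^ n = A * G i ^ (n - 1))
    (hD : ∑ i, z i * G i ^ (n - 1) = D) :
    A = 0 ∨ ∃ d e : R, e ∣ D ∧ A * e = d ^ n := by
  classical
  rcases eq_or_ne A 0 with hA | hA
  · exact Or.inl hA
  right
  let : StrongNormalizationMonoid R := UniqueFactorizationMonoid.strongNormalizationMonoid
  let := UniqueFactorizationMonoid.toStrongNormalizedGCDMonoid R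
  obtain ⟨t, ht, ht1⟩ := Finset.extract_gcd T (s := Finset.univ) ⟨⟨0, hr⟩, Finset.mem_univ _⟩
  set d := Finset.univ.gcd T
  have ht' : ∀ i, T i = d * t i := fun i => ht i (Finset.mem_univ i)
  set g := Finset.univ.gcd fun i => t i ^ n
  have hg : IsUnit g := by
    by_contra hu
    have hg0 : g ≠ 0 := fun h0 => by
      have h : Finset.univ.gcd t = 0 := Finset.gcd_eq_zero_iff.mpr fun i hi =>
        eq_zero_of_pow_eq_zero (Finset.gcd_eq_zero_iff.mp h0 i hi)
      rw [ht1] at h
      exact one_ne_zero h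
    obtain ⟨q, hq, hqg⟩ := WfDvdMonoid.exists_irreducible_factor hu hg0
    have hq' := hq.prime
    refine hq'.not_isUnit (isUnit_of_dvd_one (ht1 ▸ Finset.dvd_gcd fun i _ =>
      hq'.dvd_of_dvd_pow (hqg.trans (Finset.gcd_dvd (Finset.mem_univ i)))))
  have hAd : A ∣ d ^ n := by
    have h : A ∣ Finset.univ.gcd fun i => d ^ n * t i ^ n :=
      Finset.dvd_gcd fun i _ => ⟨G i ^ (n - 1), by rw [← mul_pow, ← ht', hT]⟩
    rw [show (Finset.univ.gcd fun i => d ^ n * t i ^ n) = normalize (d ^ n) * g from
      Finset.gcd_mul_left] at h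
    exact (hg.dvd_mul_right.mp h).trans (normalize_associated _).dvd
  obtain ⟨e, he⟩ := hAd
  refine ⟨d, e, (mul_dvd_mul_iff_left hA).mp ?_, he.symm⟩
  rw [← he, ← hD, Finset.mul_sum]
  refine Finset.dvd_sum fun i _ => ?_
  rw [mul_left_comm, ← hT, ht', mul_pow]
  exact Dvd.dvd.mul_left (dvd_mul_right _ _) _

variable {O E : Type} [CommRing O] [Field E] [Algebra O E]

/-- A series of `O[[X]]` as a Laurent series over `E`. -/
def toSeries : PowerSeries O →+* LaurentSeries E :=
  (HahnSeries.ofPowerSeries ℤ E).comp (PowerSeries.map (algebraMap O E))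

theorem toSeries_mem_bddSub [IsDomain O] [IsFractionRing O E] (s : PowerSeries O) :
    toSeries s ∈ bddSub (E := E) O := by
  refine ⟨1, one_ne_zero, fun i => ?_⟩
  rcases lt_or_ge i 0 with hi | hi
  · exact ⟨0, by
      rw [show toSeries s =
        HahnSeries.ofPowerSeries ℤ E (PowerSeries.map (algebraMap O E) s) from rfl,
        HahnSeries.ofPowerSeries_apply, HahnSeries.embDomain_of_notMem_range]
      · simp
      · rintro ⟨m, hm⟩
        have : (m : ℤ) = i := hm
        omega⟩
  · lift i to ℕ using hi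
    refine ⟨PowerSeries.coeff i s, ?_⟩
    simp [toSeries, HahnSeries.ofPowerSeries_apply_coeff]

variable [IsDomain O] [IsFractionRing O E]

omit [IsDomain O] in
theorem toSeries_injective : Function.Injective (toSeries : PowerSeries O → LaurentSeries E) :=
  fun a b h => PowerSeries.ext fun j => IsFractionRing.injective O E (by
    have h1 := congrArg (PowerSeries.coeff j)
      (HahnSeries.ofPowerSeries_injective (Γ := ℤ) (R := E) h)
    rwa [PowerSeries.coeff_map, PowerSeries.coeff_map] at h1)

omit [IsDomain O] [IsFractionRing O E] in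
theorem toSeries_C (a : O) :
    toSeries (C a) = (HahnSeries.C (algebraMap O E a) : LaurentSeries E) := by
  simp [toSeries]

omit [IsDomain O] [IsFractionRing O E] in
theorem toSeries_X :
    toSeries (O := O) X = (HahnSeries.single 1 1 : LaurentSeries E) := by
  simp [toSeries]

/-- The monomials with nonzero coefficient, which are invertible in the bounded series. -/
def monomials (O : Type) [CommRing O] [IsDomain O] : Submonoid (PowerSeries O) where
  carrier := {s | ∃ (a : O) (k : ℕ), a ≠ 0 ∧ s = C a * X ^ k}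
  one_mem' := ⟨1, 0, one_ne_zero, by simp⟩
  mul_mem' := by
    rintro _ _ ⟨a, k, ha, rfl⟩ ⟨b, l, hb, rfl⟩
    exact ⟨a * b, k + l, mul_ne_zero ha hb, by rw [map_mul, pow_add]; ring⟩

theorem inv_toSeries_mem {M : PowerSeries O} (hM : M ∈ monomials O) :
    toSeries M ≠ (0 : LaurentSeries E) ∧ (toSeries M)⁻¹ ∈ bddSub (E := E) O := by
  obtain ⟨a, k, ha, rfl⟩ := hM
  have ha' : algebraMap O E a ≠ 0 :=
    (map_ne_zero_iff _ (IsFractionRing.injective O E)).mpr ha
  have h : toSeries (C a * X ^ k) *
      (HahnSeries.C (algebraMap O E a)⁻¹ * HahnSeries.single (-(k : ℤ)) 1) =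
        (1 : LaurentSeries E) := by
    rw [map_mul, map_pow, toSeries_C, toSeries_X, mul_mul_mul_comm, ← map_mul,
      mul_inv_cancel₀ ha', map_one, one_mul, HahnSeries.single_pow, HahnSeries.single_mul_single]
    simp
  refine ⟨left_ne_zero_of_mul_eq_one h, ?_⟩
  rw [inv_eq_of_mul_eq_one_right h]
  refine mul_mem (C_mem_bddSub _) ?_
  simpa using single_mem_bddSub (E := E) (-(k : ℤ)) (1 : O)

omit [IsFractionRing O E] in
/-- Bounded series become integral after multiplication by a monomial. -/
theorem exists_monomial_mul {s : LaurentSeries E} (hs : s ∈ bddSub (E := E) O) :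
    ∃ M ∈ monomials O, ∃ f : PowerSeries O, toSeries M * s = toSeries f := by
  obtain ⟨b, hb, h⟩ := hs
  choose a ha using h
  obtain ⟨k, hk⟩ : ∃ k : ℕ, ∀ i : ℤ, i + k < 0 → s.coeff i = 0 := by
    refine ⟨(-s.order).toNat, fun i hi => HahnSeries.coeff_eq_zero_of_lt_order ?_⟩
    omega
  refine ⟨C b * X ^ k, ⟨b, k, hb, rfl⟩, PowerSeries.mk fun j => a ((j : ℤ) - k), ?_⟩
  rw [map_mul, map_pow, toSeries_C, toSeries_X, HahnSeries.single_pow, HahnSeries.C_apply,
    HahnSeries.single_mul_single]
  ext i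
  simp only [zero_add, nsmul_one, one_pow, mul_one]
  rw [show i = (i - k) + k by ring, HahnSeries.coeff_single_mul_add]
  rcases lt_or_ge (i - k + k) 0 with hi | hi
  · rw [hk _ hi, mul_zero]
    show 0 = HahnSeries.coeff (HahnSeries.ofPowerSeries ℤ E _) _
    rw [HahnSeries.ofPowerSeries_apply, HahnSeries.embDomain_of_notMem_range]
    rintro ⟨m, hm⟩
    have : (m : ℤ) = i - k + k := hm
    omega
  · obtain ⟨j, hj⟩ := Int.eq_ofNat_of_zero_le hi
    rw [hj]
    show _ = HahnSeries.coeff (HahnSeries.ofPowerSeries ℤ E _) _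
    rw [HahnSeries.ofPowerSeries_apply_coeff, PowerSeries.coeff_map, PowerSeries.coeff_mk, ha,
      show (j : ℤ) - k = i - k by omega]

omit [IsFractionRing O E] [IsDomain O] in
/-- A uniformizer is prime in `O[[X]]`. -/
theorem prime_C {π : O} (hπ : Prime π) : Prime (C π) := by
  have hI : (Ideal.span {π}).IsPrime := (Ideal.span_singleton_prime hπ.ne_zero).mpr hπ
  have hdvd : ∀ f : PowerSeries O,
      C π ∣ f ↔ PowerSeries.map (Ideal.Quotient.mk (Ideal.span {π})) f = 0 := fun f => by
    constructor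
    · rintro ⟨g, rfl⟩
      rw [map_mul, PowerSeries.map_C, Ideal.Quotient.eq_zero_iff_mem.mpr
        (Ideal.mem_span_singleton_self π), map_zero, zero_mul]
    · intro h
      have h' : ∀ j, π ∣ PowerSeries.coeff j f := fun j => by
        have := congrArg (PowerSeries.coeff j) h
        rwa [PowerSeries.coeff_map, map_zero, Ideal.Quotient.eq_zero_iff_mem,
          Ideal.mem_span_singleton] at this
      choose c hc using h'
      exact ⟨PowerSeries.mk c, PowerSeries.ext fun j => by
        rw [PowerSeries.coeff_C_mul, PowerSeries.coeff_mk, hc]⟩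
  refine ⟨fun h => hπ.ne_zero (by simpa using congrArg PowerSeries.constantCoeff h),
    fun h => hπ.not_isUnit (by simpa using h.map (PowerSeries.constantCoeff (R := O))),
    fun f g h => ?_⟩
  simp only [hdvd, map_mul, mul_eq_zero] at h ⊢
  exact h

omit [IsFractionRing O E] in
/-- The divisors of monomials are monomials times units with constant term one. -/
theorem exists_of_dvd_monomial [IsDiscreteValuationRing O] {M v : PowerSeries O}
    (hM : M ∈ monomials O) (hv : v ∣ M) :
    ∃ N ∈ monomials O, ∃ w : PowerSeries O, PowerSeries.constantCoeff w = 1 ∧ v = N * w := by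
  obtain ⟨a, k, ha, rfl⟩ := hM
  obtain ⟨π, hπ⟩ := IsDiscreteValuationRing.exists_irreducible O
  obtain ⟨j, u, rfl⟩ := IsDiscreteValuationRing.eq_unit_mul_pow_irreducible ha hπ
  rw [map_mul, mul_assoc, IsUnit.dvd_mul_left (u.isUnit.map C), map_pow] at hv
  obtain ⟨v₁, v₂, h₁, h₂, rfl⟩ := exists_dvd_and_dvd_of_dvd_mul hv
  obtain ⟨i, -, hi⟩ := (dvd_prime_pow (prime_C hπ.prime) j).mp h₁
  obtain ⟨u₁, rfl⟩ := hi.symm
  obtain ⟨l, -, hl⟩ := (dvd_prime_pow (PowerSeries.X_prime (R := O)) k).mp h₂
  obtain ⟨u₂, rfl⟩ := hl.symm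
  set w₀ : PowerSeries O := ↑u₁ * ↑u₂
  have hc : IsUnit (PowerSeries.constantCoeff w₀) :=
    (u₁.isUnit.mul u₂.isUnit).map _
  refine ⟨C (PowerSeries.constantCoeff w₀ * π ^ i) * X ^ l, ⟨_, l,
    mul_ne_zero hc.ne_zero (pow_ne_zero _ hπ.ne_zero), rfl⟩,
    C (↑hc.unit⁻¹ : O) * w₀, by rw [map_mul, constantCoeff_C, IsUnit.val_inv_mul], ?_⟩
  have : (C (PowerSeries.constantCoeff w₀) : PowerSeries O) * C (↑hc.unit⁻¹ : O) = 1 := by
    rw [← map_mul, IsUnit.mul_val_inv, map_one]
  rw [map_mul, map_pow]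
  linear_combination (norm := (simp only [w₀]; ring)) -(C π ^ i * X ^ l * w₀) * this

omit [IsDomain O] [IsFractionRing O E] in
/-- Formal roots in `O[[X]]`. -/
theorem exists_root_one {n : ℕ} (hn : n ≠ 0) (hu : IsUnit (n : O)) (w : PowerSeries O)
    (hw : PowerSeries.constantCoeff w = 1) :
    ∃ z : PowerSeries O, z ^ n = w := by
  set f : Polynomial (PowerSeries O) := Polynomial.X ^ n - Polynomial.C w with hf
  obtain ⟨G, hG, -⟩ := HenselianRing.is_henselian (I := Ideal.span {(X : PowerSeries O)})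
    f (Polynomial.monic_X_pow_sub_C _ hn) (C 1) (by
      rw [Ideal.mem_span_singleton, PowerSeries.X_dvd_iff, hf]
      simp [hw]) (by
      refine IsUnit.map _ ?_
      rw [PowerSeries.isUnit_iff_constantCoeff, hf]
      simpa [Polynomial.derivative_X_pow] using hu)
  refine ⟨G, ?_⟩
  rwa [Polynomial.IsRoot.def, hf, Polynomial.eval_sub, Polynomial.eval_pow, Polynomial.eval_X,
    Polynomial.eval_C, sub_eq_zero] at hG

/-- A Laurent series with an invertible monomial as `n`-th power is bounded. -/
theorem mem_bddSub_of_pow_eq_monomial {n : ℕ} (hnE : (n : E) ≠ 0) {L : LaurentSeries E}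
    {m : ℤ} {c : E} (hc : c ≠ 0) (hL : L ^ n = HahnSeries.single m c) :
    L ∈ bddSub (E := E) O := by
  have hn : n ≠ 0 := fun h => hnE (by simp [h])
  have hL0 : L ≠ 0 := fun h => by
    rw [h, zero_pow hn, eq_comm, HahnSeries.single_eq_zero_iff] at hL
    exact hc hL
  set l := L.order
  set P := LaurentSeries.powerSeriesPart L
  have hP : HahnSeries.single l (1 : E) * HahnSeries.ofPowerSeries ℤ E P = L :=
    LaurentSeries.single_order_mul_powerSeriesPart L
  set c₀ := PowerSeries.constantCoeff P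
  have hc₀ : c₀ ≠ 0 := by
    show PowerSeries.constantCoeff P ≠ 0
    rw [← PowerSeries.coeff_zero_eq_constantCoeff_apply, LaurentSeries.powerSeriesPart_coeff]
    simpa [HahnSeries.coeff_order_eq_zero] using hL0
  have hpow : HahnSeries.ofPowerSeries ℤ E (P ^ n) =
      HahnSeries.single (m - n • l) c := by
    rw [map_pow]
    refine mul_left_cancel₀ (b := _) (pow_ne_zero n (left_ne_zero_of_mul (hP.symm ▸ hL0))) ?_
    rw [← mul_pow, hP, hL, HahnSeries.single_pow, HahnSeries.single_mul_single]
    simp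
  have h0 : m - n • l = 0 := by
    by_contra h
    have := congrArg (fun s => HahnSeries.coeff s (0 : ℤ)) hpow
    simp only [HahnSeries.coeff_single_of_ne (Ne.symm h)] at this
    rw [show (0 : ℤ) = ((0 : ℕ) : ℤ) from rfl, HahnSeries.ofPowerSeries_apply_coeff,
      PowerSeries.coeff_zero_eq_constantCoeff_apply, map_pow] at this
    exact pow_ne_zero n hc₀ this
  rw [h0] at hpow
  have hPn : P ^ n = PowerSeries.C c := HahnSeries.ofPowerSeries_injective (by
    rw [hpow, HahnSeries.ofPowerSeries_C, HahnSeries.C_apply])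
  have hP0 : P = PowerSeries.C c₀ := by
    set Q := PowerSeries.C c₀⁻¹ * P with hQ
    have hQ0 : PowerSeries.constantCoeff Q = 1 := by
      rw [hQ, map_mul, constantCoeff_C, inv_mul_cancel₀ hc₀]
    have hQn : Q ^ n = 1 := by
      rw [hQ, mul_pow, hPn, ← map_pow, ← map_mul]
      have : c₀ ^ n = c := by
        have := congrArg (PowerSeries.constantCoeff (R := E)) hPn
        rwa [map_pow, constantCoeff_C] at this
      rw [← this, ← mul_pow, inv_mul_cancel₀ hc₀, one_pow, map_one]
    have h := geom_sum_mul Q n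
    rw [hQn, sub_self, mul_eq_zero] at h
    rcases h with h | h
    · have := congrArg (PowerSeries.constantCoeff (R := E)) h
      rw [map_sum, map_zero] at this
      simp [map_pow, hQ0, hnE] at this
    · rw [sub_eq_zero] at h
      calc P = PowerSeries.C c₀ * Q := by
            rw [hQ, ← mul_assoc, ← map_mul, mul_inv_cancel₀ hc₀, map_one, one_mul]
        _ = _ := by rw [h, mul_one]
  rw [← hP, hP0, HahnSeries.ofPowerSeries_C]
  exact mul_mem (by simpa using single_mem_bddSub (E := E) l (1 : O)) (C_mem_bddSub _)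

/-- The `n`-th root of a bounded series is bounded. -/
theorem mem_bddSub_of_pow_eq [IsDiscreteValuationRing O] {n : ℕ} (hn : 2 ≤ n)
    (hu : IsUnit (n : O)) {r : ℕ}
    {S : LaurentSeries E} (hS : S ^ n ∈ bddSub (E := E) O)
    (R : Fin r → LaurentSeries E) (hR : ∀ i, R i ∈ bddSub (E := E) O) (hsum : ∑ i, R i = 1)
    (G G' T : Fin r → LaurentSeries E) (hG : ∀ i, G i ∈ bddSub (E := E) O)
    (hG' : ∀ i, G' i ∈ bddSub (E := E) O) (hT : ∀ i, T i ∈ bddSub (E := E) O)
    (hRG : ∀ i, R i ^ n = G i * G' i) (hTG : ∀ i, T i ^ n = S ^ n * G i ^ (n - 1)) :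
    S ∈ bddSub (E := E) O := by
  classical
  have hr : 0 < r := by
    rcases Nat.eq_zero_or_pos r with rfl | h
    · simp at hsum
    · exact h
  let B := bddSub (E := E) O
  -- the `G i ^ (n - 1)` generate the unit ideal
  let g : Fin r → B := fun i => ⟨G i, hG i⟩
  set J : Ideal B := Ideal.span (Set.range fun i => g i ^ (n - 1))
  have h1 : (1 : B) ∈ J := by
    have hrad : ∀ i, (⟨R i, hR i⟩ : B) ∈ J.radical := fun i => by
      refine ⟨n * (n - 1), ?_⟩
      rw [pow_mul, show (⟨R i, hR i⟩ : B) ^ n = g i * ⟨G' i, hG' i⟩ from Subtype.ext (hRG i),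
        mul_pow]
      exact Ideal.mul_mem_right _ _ (Ideal.subset_span ⟨i, rfl⟩)
    have h : (1 : B) ∈ J.radical := by
      rw [show (1 : B) = ∑ i, (⟨R i, hR i⟩ : B) from Subtype.ext (by push_cast; exact hsum.symm)]
      exact Ideal.sum_mem _ fun i _ => hrad i
    obtain ⟨a, ha⟩ := h
    rwa [one_pow] at ha
  rw [Ideal.mem_span_range_iff_exists_fun] at h1
  obtain ⟨y, hy⟩ := h1
  have hy' : ∑ i, (y i : LaurentSeries E) * G i ^ (n - 1) = 1 := by
    have := congrArg (Subtype.val : B → LaurentSeries E) hy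
    push_cast at this
    exact this
  -- common denominator
  let Q := {s : LaurentSeries E // s ∈ bddSub (E := E) O}
  let all : (Unit ⊕ Fin r) ⊕ (Fin r ⊕ Fin r) → Q := Sum.elim
    (Sum.elim (fun _ => ⟨S ^ n, hS⟩) fun i => ⟨G i, hG i⟩)
    (Sum.elim (fun i => ⟨T i, hT i⟩) fun i => ⟨y i, (y i).2⟩)
  choose M hMm f hf using fun i => exists_monomial_mul (O := O) (all i).2
  set D : PowerSeries O := ∏ i, M i with hD
  have hDm : D ∈ monomials O := prod_mem fun i _ => hMm i
  have hclear : ∀ i, ∃ q : PowerSeries O, toSeries D * (all i : LaurentSeries E) = toSeries q :=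
    fun i => ⟨(∏ l ∈ Finset.univ.erase i, M l) * f i, by
      rw [map_mul, ← hf i, ← mul_assoc, ← map_mul, Finset.prod_erase_mul _ _ (Finset.mem_univ i)]⟩
  choose q hq using hclear
  obtain ⟨k, rfl⟩ := Nat.exists_eq_add_of_le (show 1 ≤ n by omega)
  simp only [Nat.add_sub_cancel_left] at *
  set A : PowerSeries O := D ^ ((1 + k) * (1 + k) - k - 1) * q (.inl (.inl ())) with hA
  let G₀ : Fin r → PowerSeries O := fun i => q (.inl (.inr i))
  let T₀ : Fin r → PowerSeries O := fun i => D ^ k * q (.inr (.inl i))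
  let z : Fin r → PowerSeries O := fun i => q (.inr (.inr i))
  have hSn : toSeries D ^ ((1 + k) * (1 + k) - k) * S ^ (1 + k) = toSeries A := by
    rw [hA, map_mul, map_pow, ← hq (.inl (.inl ())), ← mul_assoc, ← pow_succ]
    congr 2
    have : k + 1 ≤ (1 + k) * (1 + k) := by nlinarith
    omega
  have hD0 := (inv_toSeries_mem (E := E) hDm).1
  have hT₀ : ∀ i, T₀ i ^ (1 + k) = A * G₀ i ^ k := fun i => by
    apply toSeries_injective (E := E)
    simp only [T₀, G₀, map_pow, map_mul, ← hq, all, Sum.elim_inl, Sum.elim_inr, ← hSn, mul_pow,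
      hTG, ← pow_mul]
    have : k ≤ (1 + k) * (1 + k) := by nlinarith
    obtain ⟨a, ha⟩ := Nat.exists_eq_add_of_le this
    rw [ha, Nat.add_sub_cancel_left]
    have e : k * (1 + k) + (1 + k) = a + k := by nlinarith
    linear_combination
      (S ^ (1 + k) * G i ^ k) * (congrArg (fun e => (toSeries D : LaurentSeries E) ^ e) e)
  have hz : ∑ i, z i * G₀ i ^ k = D ^ (1 + k) := by
    apply toSeries_injective (E := E)
    simp only [z, G₀, map_sum, map_pow, map_mul, ← hq, all, Sum.elim_inl, Sum.elim_inr, mul_pow]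
    calc _ = toSeries D ^ (1 + k) * ∑ i, (y i : LaurentSeries E) * G i ^ k := by
          rw [Finset.mul_sum]
          exact Finset.sum_congr rfl fun i _ => by ring
      _ = _ := by rw [hy', mul_one]
  rcases exists_pow_eq_mul_of_dvd (by omega : 1 + k ≠ 0) hr A _ G₀ T₀ z
    (by simpa using hT₀) (by simpa using hz) with h | ⟨d, e, he, hde⟩
  · rw [h, map_zero, mul_eq_zero, or_iff_right (pow_ne_zero _ hD0),
      pow_eq_zero_iff (by omega)] at hSn
    rw [hSn]
    exact zero_mem _
  obtain ⟨N, hN, w, hw, hv⟩ := exists_of_dvd_monomial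
    (M := D ^ ((1 + k) * (1 + k) - k) * D ^ (1 + k)) (v := D ^ ((1 + k) * (1 + k) - k) * e)
    (mul_mem (pow_mem hDm _) (pow_mem hDm _)) (mul_dvd_mul_left _ he)
  obtain ⟨x, hx⟩ := exists_root_one (by omega : 1 + k ≠ 0) hu w hw
  have hN0 := inv_toSeries_mem (E := E) hN
  have key : toSeries N * (toSeries x * S) ^ (1 + k) =
    (toSeries d : LaurentSeries E) ^ (1 + k) := by
    rw [← map_pow toSeries d, ← hde, map_mul, ← hSn]
    have h := congrArg (toSeries : PowerSeries O →+* LaurentSeries E) hv
    rw [map_mul, map_pow, ← hx, map_mul, map_pow] at h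
    linear_combination -(S ^ (1 + k)) * h
  have hw0 : IsUnit x := PowerSeries.isUnit_iff_constantCoeff.mpr
    (IsUnit.of_mul_eq_one (PowerSeries.constantCoeff x ^ k) (by
      rw [← pow_succ', add_comm k 1, ← map_pow, hx, hw]))
  rcases eq_or_ne d 0 with rfl | hd
  · rw [map_zero, zero_pow (by omega : 1 + k ≠ 0), mul_eq_zero, or_iff_right hN0.1,
      pow_eq_zero_iff (by omega), mul_eq_zero] at key
    rcases key with h | h
    · exact absurd (toSeries_injective (h.trans (map_zero _).symm)) hw0.ne_zero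
    · rw [h]; exact zero_mem _
  have hd' : (toSeries d : LaurentSeries E) ≠ 0 :=
    fun h => hd (toSeries_injective (h.trans (map_zero _).symm))
  set L := toSeries x * S / toSeries d with hL
  have hLn : L ^ (1 + k) = (toSeries N)⁻¹ := by
    refine eq_inv_of_mul_eq_one_left ?_
    rw [hL, div_pow, div_mul_eq_mul_div, mul_comm _ (toSeries N), key,
      div_self (pow_ne_zero _ hd')]
  obtain ⟨a, l, ha, rfl⟩ := hN
  have hE : ((1 + k : ℕ) : E) ≠ 0 := by
    simpa using (hu.map (algebraMap O E)).ne_zero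
  have hLmem : L ∈ bddSub (E := E) O := by
    refine mem_bddSub_of_pow_eq_monomial hE (c := (algebraMap O E a)⁻¹) (m := -(l : ℤ))
      (inv_ne_zero ((map_ne_zero_iff _ (IsFractionRing.injective O E)).mpr ha)) (hLn.trans ?_)
    rw [map_mul, map_pow, toSeries_C, toSeries_X, HahnSeries.single_pow, HahnSeries.C_apply,
      HahnSeries.single_mul_single, HahnSeries.inv_single]
    simp
  obtain ⟨x', hx'⟩ := hw0.exists_left_inv
  have : S = toSeries x' * (L * toSeries d) := by
    rw [hL, div_mul_cancel₀ _ hd', ← mul_assoc, ← map_mul, hx', map_one, one_mul]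
  rw [this]
  exact mul_mem (toSeries_mem_bddSub x') (mul_mem hLmem (toSeries_mem_bddSub d))

/-- A valuation subring of a number field over a prime is a discrete valuation ring. -/
theorem exists_dvr_le {F : Type} [Field F] [NumberField F] (B : ValuationSubring F) {p : ℕ}
    (hp : p.Prime) (hB : B.LiesOverPrime p) : IsDiscreteValuationRing B := by
  have hint : ∀ x : NumberField.RingOfIntegers F, (x : F) ∈ B := fun x =>
    Gal.mem_of_isIntegral B x.2
  let ι : NumberField.RingOfIntegers F →+* B :=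
    { toFun := fun x => ⟨x, hint x⟩
      map_one' := rfl
      map_mul' := fun _ _ => rfl
      map_zero' := rfl
      map_add' := fun _ _ => rfl }
  let : Algebra (NumberField.RingOfIntegers F) B := ι.toAlgebra
  let P : Ideal (NumberField.RingOfIntegers F) := (IsLocalRing.maximalIdeal B).comap ι
  have hPp : P.IsPrime := Ideal.IsPrime.comap ι
  have hP : ∀ x, x ∈ P ↔ (x : F) ∈ B.nonunits := fun x => ValuationSubring.coe_mem_nonunits_iff.symm
  have hP0 : P ≠ ⊥ := fun h => by
    have hpm : (p : NumberField.RingOfIntegers F) ∈ P :=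
      (hP _).mpr (by simpa [ValuationSubring.LiesOverPrime] using hB)
    rw [h, Ideal.mem_bot, Nat.cast_eq_zero] at hpm
    exact hp.ne_zero hpm
  have : IsLocalization.AtPrime B P := by
    rw [IsLocalization.AtPrime, isLocalization_iff]
    refine ⟨fun y => ?_, fun z => ?_, fun {x y} h => ?_⟩
    · by_contra hy
      exact y.2 (show (y : NumberField.RingOfIntegers F) ∈ P from hy)
    · obtain ⟨b, s, hb, hs, hsB, hzs⟩ := Gal.exists_mul_eq_of_mem B z.2
      exact ⟨⟨⟨b, hb⟩, ⟨⟨s, hs⟩, fun h => hsB ((hP _).mp h)⟩⟩, Subtype.ext hzs⟩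
    · exact ⟨1, congrArg _ (NumberField.RingOfIntegers.ext
        (congrArg Subtype.val (h : ι x = ι y) :) :)⟩
  exact IsLocalization.AtPrime.isDiscreteValuationRing_of_dedekind_domain _ hP0 B

end Fermat.Agent.DeligneSerre
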