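import Fermat.Agent.DeligneSerre.Local.Ser
import Fermat.Agent.DeligneSerre.Local.Algebra
import Fermat.Agent.LevelM.SepMk

/-!
# Characters are determined by congruences

By connectedness of the reduced ring of functions of level `±Γ(N₀)` over `±Γ₁(M)`, a function with
character whose reduction vanishes at one cusp in `±Γ(N₀)` has zero reduction at every cusp, and
congruent functions with characters have equal characters.
-/

set_option autoImplicit false

noncomputable section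

open UpperHalfPlane hiding I
open scoped MatrixGroups

namespace Fermat.Agent.DeligneSerre

open Fermat.Agent.Igusa (HasExp QSR mem_QSR)
open Fermat.Agent.LevelM (sgnGamma sgnGamma1)
open Fermat.Agent.Connected (Inv tr fRing tr_mk qsr_unique)
open IsLocalRing (residue ResidueField)

local notation "ℚbar" => AlgebraicClosure ℚ

namespace Setting

variable {M : ℕ} (S : Setting M)

/-- The valuation ring of the coefficient field. -/
def intRing : ValuationSubring S.E := S.A.comap (algebraMap S.E ℚbar)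

/-- The valuation ring inside `ℚbar`. -/
def intIncl : S.intRing →+* ℚbar := (algebraMap S.E ℚbar).comp S.intRing.subtype

/-- The valuation ring inside `ℂ`. -/
def iotaO : S.intRing →+* ℂ := eQ.comp S.intIncl

theorem intIncl_injective : Function.Injective S.intIncl :=
  (algebraMap S.E ℚbar).injective.comp Subtype.val_injective

theorem iotaO_injective : Function.Injective S.iotaO := eQ_injective.comp S.intIncl_injective

theorem exists_intIncl_eq {x : ℚbar} (hE : x ∈ S.E) (hA : x ∈ S.A) :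
    ∃ a : S.intRing, S.intIncl a = x := ⟨⟨⟨x, hE⟩, hA⟩, rfl⟩

theorem residue_eq_zero_iff {a : S.intRing} :
    residue S.intRing a = 0 ↔ S.intIncl a ∈ S.A.nonunits := by
  rw [IsLocalRing.residue_eq_zero_iff, ← ValuationSubring.coe_mem_nonunits_iff,
    ValuationSubring.mem_nonunits_iff_or, ValuationSubring.mem_nonunits_iff_or]
  refine or_congr (map_eq_zero (algebraMap S.E ℚbar)).symm ?_
  show ¬ algebraMap S.E ℚbar ((a : S.E)⁻¹) ∈ S.A ↔ _
  rw [map_inv₀]
  rfl

theorem isUnit_natCast {m : ℕ} (hm : ¬ S.p ∣ m) : IsUnit (m : S.intRing) := by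
  by_contra h
  have h1 := S.residue_eq_zero_iff.1 ((IsLocalRing.residue_eq_zero_iff _).2 h)
  rw [map_natCast] at h1
  exact hm ((Gal.natCast_mem_nonunits_iff S.A S.hp S.hA m).1 h1)

theorem isDiscreteValuationRing : IsDiscreteValuationRing S.intRing := by
  have := S.finE
  have : NumberField S.E := { to_charZero := inferInstance, to_finiteDimensional := S.finE }
  refine exists_dvr_le S.intRing S.hp ?_
  show (S.p : S.E) ∈ S.intRing.nonunits
  have h : (S.p : ℚbar) ∈ S.A.nonunits := S.hA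
  rw [ValuationSubring.mem_nonunits_iff_or] at h ⊢
  refine h.imp (fun h => (algebraMap S.E ℚbar).injective (by rw [map_natCast, map_zero, h]))
    fun h hmem => h ?_
  have : algebraMap S.E ℚbar ((S.p : S.E)⁻¹) ∈ S.A := hmem
  rwa [map_inv₀, map_natCast] at this

instance neZero_N₀ : NeZero S.N₀ := ⟨by rcases S.hN₀ with h | h <;> omega⟩

variable [NeZero M]

instance neZero_level : NeZero (M * S.N₀) :=
  ⟨Nat.mul_ne_zero (NeZero.ne M) (by rcases S.hN₀ with h | h <;> omega)⟩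

omit [NeZero M] in
theorem not_dvd_level : ¬ S.p ∣ M * S.N₀ := fun h =>
  (S.hp.dvd_mul.1 h).elim S.hpM S.hpN₀

theorem exists_levelData (hM : 3 ≤ M) :
    ∃ L : LevelM.LevelData S.intRing (M * S.N₀) S.iotaO, L.M = M ∧ L.B.N = S.N₀ := by
  set h := M * S.N₀
  have hexp : Complex.exp (2 * Real.pi * Complex.I / h) ^ h = 1 :=
    (Complex.isPrimitiveRoot_exp h (NeZero.ne h)).pow_eq_one
  obtain ⟨x, hx⟩ := exists_eQ_eq (IsAlgebraic.of_pow (NeZero.pos h) (hexp ▸ isAlgebraic_one :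
    IsAlgebraic ℚ (Complex.exp (2 * Real.pi * Complex.I / h) ^ h)))
  have hxh : x ^ h = 1 := eQ_injective (by rw [map_pow, hx, hexp, map_one])
  have hxE : x ∈ S.E := S.root_mem x (by rw [mul_assoc, mul_comm, pow_mul, hxh, one_pow])
  have hxA : x ∈ S.A :=
    Gal.mem_of_isIntegral S.A (IsIntegral.of_pow (NeZero.pos h) (hxh ▸ isIntegral_one))
  obtain ⟨z, hz⟩ := S.exists_intIncl_eq hxE hxA
  have hzu : IsUnit z := IsUnit.of_pow_eq_one (n := h)
    (S.intIncl_injective (by rw [map_pow, hz, hxh, map_one])) (NeZero.ne h)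
  have hζ : S.iotaO (hzu.unit : S.intRing) = Complex.exp (2 * Real.pi * Complex.I / h) := by
    rw [IsUnit.unit_spec, iotaO, RingHom.comp_apply, hz, hx]
  have hu : IsUnit ((h : ℕ) : S.intRing) := S.isUnit_natCast S.not_dvd_level
  rcases S.hN₀ with h3 | h4
  · refine ⟨⟨LevelM.baseThree (e := M) S.iotaO_injective hζ hu
      (by rw [← h3]), hu, M, hM, S.N₀, mul_comm _ _⟩, rfl, h3.symm⟩
  · refine ⟨⟨LevelM.baseFour (e := M) S.iotaO_injective hζ hu
      (by rw [← h4]), hu, M, hM, S.N₀, mul_comm _ _⟩, rfl, h4.symm⟩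

/-- `y` is the expansion of `f`. -/
def IsSer (f : ℍ → ℂ) (y : LaurentSeries S.intRing) : Prop :=
  HasExp M f (ModularCurve.coeffMap S.iotaO y)

variable {S}

omit [NeZero M] in
theorem SerIn.exists_isSer {f : ℍ → ℂ} (hs : S.SerIn f) (δ : SL(2, ℤ)) :
    ∃ y, S.IsSer (fun τ => f (δ • τ)) y := by
  obtain ⟨s, hs, h⟩ := hs δ
  choose a ha using fun i => S.exists_intIncl_eq (hs i).1 (hs i).2
  have hy : Function.support a ⊆ s.support := fun i hi hsi => hi (S.intIncl_injective (by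
    rw [ha i, map_zero, hsi]))
  refine ⟨⟨a, s.isPWO_support.mono hy⟩, ?_⟩
  rw [IsSer, show ModularCurve.coeffMap S.iotaO ⟨a, s.isPWO_support.mono hy⟩ =
    ModularCurve.coeffMap eQ s from HahnSeries.ext (funext fun i => by
      show eQ (S.intIncl (a i)) = eQ (s.coeff i)
      rw [ha i])]
  exact h

theorem IsSer.coeffMap_eq {f : ℍ → ℂ} {y : LaurentSeries S.intRing} (hy : S.IsSer f y)
    {s : LaurentSeries ℚbar} (hs : HasExp M f (ModularCurve.coeffMap eQ s)) :
    ModularCurve.coeffMap S.intIncl y = s := by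
  refine coeffMap_eQ_injective ?_
  rw [ModularCurve.coeffMap_coeffMap]
  exact HasExp.unique hy hs

theorem IsSer.qsr {f : ℍ → ℂ} {y : LaurentSeries S.intRing} (hy : S.IsSer f y) :
    (f, ModularCurve.qExpand S.intRing S.N₀ y) ∈
      @QSR S.intRing _ (M * S.N₀) S.iotaO := by
  rw [mem_QSR, ModularCurve.coeffMap_qExpand]
  exact LevelM.hasExp_expand hy S.N₀ rfl

omit [NeZero M] in
theorem coeffMap_residue_eq_zero_iff {y : LaurentSeries S.intRing} :
    ModularCurve.coeffMap (residue S.intRing) y = 0 ↔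
      ∀ i, (ModularCurve.coeffMap S.intIncl y).coeff i ∈ S.A.nonunits := by
  simp only [HahnSeries.ext_iff, funext_iff, ModularCurve.coeffMap_coeff, HahnSeries.coeff_zero,
    residue_eq_zero_iff]

/-- A multiplier between series with a unit coefficient is integral. -/
theorem IsSer.exists_ratio {f g : ℍ → ℂ} {y y' : LaurentSeries S.intRing} (hy : S.IsSer f y)
    (hy' : S.IsSer g y') {a : ℂ} (hg : g = fun τ => a * f τ)
    (hne : ModularCurve.coeffMap (residue S.intRing) y ≠ 0) :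
    ∃ c, S.iotaO c = a ∧ y' = HahnSeries.C c * y := by
  have he : ModularCurve.coeffMap S.iotaO y' =
      HahnSeries.C a * ModularCurve.coeffMap S.iotaO y := by
    refine HasExp.unique hy' ?_
    rw [hg, HahnSeries.C_apply]
    exact (Igusa.hasExp_const M a).mul hy
  obtain ⟨i, hi⟩ : ∃ i, residue S.intRing (y.coeff i) ≠ 0 := by
    by_contra hc
    push Not at hc
    exact hne (HahnSeries.ext (funext fun i => by simpa using hc i))
  obtain ⟨u, hu⟩ : IsUnit (y.coeff i) :=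
    not_not.1 fun h => hi ((IsLocalRing.residue_eq_zero_iff _).2 h)
  have hi' := congrArg (fun x => HahnSeries.coeff x i) he
  simp only [HahnSeries.C_apply, HahnSeries.coeff_single_zero_mul,
    ModularCurve.coeffMap_coeff] at hi'
  have hc : S.iotaO (y'.coeff i * ↑u⁻¹) = a := by
    rw [map_mul, hi', mul_assoc, ← map_mul, ← hu, Units.mul_inv, map_one, mul_one]
  refine ⟨_, hc, ?_⟩
  refine HahnSeries.ext (funext fun j => S.iotaO_injective ?_)
  have hj := congrArg (fun x => HahnSeries.coeff x j) he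
  simp only [HahnSeries.C_apply, HahnSeries.coeff_single_zero_mul,
    ModularCurve.coeffMap_coeff] at hj ⊢
  rw [hj, map_mul S.iotaO, hc]

omit [NeZero M] in
/-- Roots of unity of order `n ≠ p` with the same reduction are equal. -/
theorem eq_of_residue_eq {n : ℕ} [Fact n.Prime] (hnp : n ≠ S.p) {c d : S.intRing}
    (hc : c ^ n = 1) (hd : d ^ n = 1) (h : residue S.intRing c = residue S.intRing d) : c = d := by
  have hn : IsUnit (n : S.intRing) := S.isUnit_natCast fun h =>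
    hnp ((Nat.prime_dvd_prime_iff_eq S.hp Fact.out).1 h).symm
  obtain ⟨u, hu⟩ := IsUnit.of_pow_eq_one hd (Fact.out : n.Prime).ne_zero
  have hq : (c * ↑u⁻¹) ^ n = 1 := by
    rw [mul_pow, hc, one_mul, ← Units.val_pow_eq_pow_val, inv_pow,
      show u ^ n = 1 from Units.ext (by rw [Units.val_pow_eq_pow_val, hu, hd]; rfl), inv_one,
      Units.val_one]
  by_contra hne
  have hne' : c * ↑u⁻¹ ≠ 1 := fun h1 => hne (by
    rw [Units.mul_inv_eq_one, hu] at h1
    exact h1)
  have h0 : residue S.intRing (1 - c * ↑u⁻¹) = 0 := by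
    rw [map_sub, map_mul, h, ← hu, ← map_mul, Units.mul_inv, sub_self]
  exact ((LevelM.isUnit_one_sub hn hq hne').map (residue S.intRing)).ne_zero h0

end Setting

open Setting

variable {M n : ℕ} [NeZero M] [Fact (5 ≤ M)] [Fact n.Prime]

omit [NeZero M] in
theorem three_le_M : 3 ≤ M := le_trans (by norm_num) (Fact.out : 5 ≤ M)

omit [Fact (5 ≤ M)] in
/-- The separation data, unbundled from the choice of a uniformiser. -/
theorem exists_sepData (S : Setting M) (L : LevelM.LevelData S.intRing (M * S.N₀) S.iotaO)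
    {Γ : Subgroup SL(2, ℤ)} (hle : Γ ≤ L.G) {r : ℕ} (F : Fin r → ℍ → ℂ)
    (Y : Fin r → SL(2, ℤ) → LaurentSeries S.intRing) (F_inv : ∀ a, Inv Γ (F a))
    (Y_spec : ∀ a γ, ((fun τ => F a (γ • τ)), Y a γ) ∈ QSR (M * S.N₀) S.iotaO)
    (hsep : ∀ γ ∈ sgnGamma L.B.N, ∀ g ∈ L.G, g ∉ Γ →
      ∀ τ, ∃ a, F a ((g * γ) • τ) ≠ F a (γ • τ))
    (hred : ∀ γ ∈ sgnGamma L.B.N, ∀ g ∈ L.G, g ∉ Γ →
      ∃ a, ModularCurve.coeffMap (residue S.intRing) (Y a (g * γ)) ≠
        ModularCurve.coeffMap (residue S.intRing) (Y a γ)) :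
    ∃ D : Connected.SepData S.intRing (ResidueField S.intRing) (M * S.N₀) S.iotaO L.B.haupt Γ,
      D.res = residue S.intRing := by
  have := S.isDiscreteValuationRing
  obtain ⟨ϖ, hϖ⟩ := IsDiscreteValuationRing.exists_irreducible S.intRing
  refine ⟨L.mkSepData hle (residue S.intRing) IsLocalRing.residue_surjective ϖ hϖ.ne_zero
    (fun a => ?_) (fun a ha => ?_) (fun s hs => ?_) F Y F_inv Y_spec hsep hred, rfl⟩
  · rw [IsLocalRing.residue_eq_zero_iff, hϖ.maximalIdeal_eq, Ideal.mem_span_singleton]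
  · by_contra h0
    obtain ⟨m, u, rfl⟩ := IsDiscreteValuationRing.eq_unit_mul_pow_irreducible h0 hϖ
    have := (pow_dvd_pow_iff hϖ.ne_zero hϖ.not_isUnit).1 (Units.dvd_mul_left.1 (ha (m + 1)))
    omega
  · obtain ⟨m, u, rfl⟩ := IsDiscreteValuationRing.eq_unit_mul_pow_irreducible hs hϖ
    exact ⟨m, Units.mul_left_dvd.2 dvd_rfl⟩

/-- The twelfth power is trivial in `SL(2, ZMod N)` for `N = 3, 4`. -/
theorem pow_twelve_eq_one {N : ℕ} (hN : N = 3 ∨ N = 4) (γ : SL(2, ZMod N)) : γ ^ 12 = 1 := by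
  set g : Matrix (Fin 2) (Fin 2) (ZMod N) := ↑γ with hg
  set t := g 0 0 + g 1 1 with ht
  let step : ZMod N → ZMod N × ZMod N → ZMod N × ZMod N := fun t x => (t * x.1 + x.2, -x.1)
  have hsq : g * g = t • g - 1 := by
    have hd : g 0 0 * g 1 1 - g 0 1 * g 1 0 = 1 := by rw [hg, ← Matrix.det_fin_two, γ.2]
    ext i j
    fin_cases i <;> fin_cases j <;> simp [Matrix.mul_apply, Fin.sum_univ_two, ht]
    · linear_combination -hd
    · ring
    · ring
    · linear_combination -hd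
  have key : ∀ k : ℕ, g ^ k = ((step t)^[k] (0, 1)).1 • g + ((step t)^[k] (0, 1)).2 • 1 := by
    intro k
    induction k with
    | zero => simp
    | succ k ih =>
      rw [pow_succ, ih, Function.iterate_succ_apply', add_mul, smul_mul_assoc, hsq, smul_sub,
        smul_smul, smul_mul_assoc, one_mul]
      simp only [step]
      module
  have hfin : ∀ (t : ZMod N), (step t)^[12] (0, 1) = (0, 1) := by
    rcases hN with rfl | rfl <;> decide
  refine Subtype.ext ?_
  rw [Matrix.SpecialLinearGroup.coe_pow, ← hg, key 12, hfin t]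
  simp

theorem pow_twelve_mem_sgnGamma {N : ℕ} (hN : N = 3 ∨ N = 4) (γ : SL(2, ℤ)) :
    γ ^ 12 ∈ sgnGamma N :=
  LevelM.Gamma_le_sgnGamma N (CongruenceSubgroup.Gamma_mem'.2
    (by rw [map_pow]; exact pow_twelve_eq_one hN _))

omit [NeZero M] [Fact (5 ≤ M)] [Fact (Nat.Prime n)] in
theorem IsCharFun.comp_mul {χ : Chr M n} {f : ℍ → ℂ} (hf : IsCharFun χ.toHom f)
    (g : sgnGamma1 M) (γ : SL(2, ℤ)) :
    (fun τ => f (((g : SL(2, ℤ)) * γ) • τ)) =
      fun τ => ((χ.toHom g : ℂˣ) : ℂ) * f (γ • τ) :=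
  funext fun τ => by rw [mul_smul, hf.map_smul]

/-- The reduction vanishes nowhere or everywhere. -/
theorem Setting.nonVan_of_exists (S : Setting M) (_hnp : n ≠ S.p) {χ : Chr M n} {f : ℍ → ℂ}
    (hf : IsCharFun χ.toHom f) (hs : S.SerIn f) (δ : SL(2, ℤ)) {s : LaurentSeries ℚbar}
    (hδ : HasExp M (fun τ => f (δ • τ)) (ModularCurve.coeffMap eQ s))
    (hne : ∃ i, s.coeff i ∉ S.A.nonunits) : S.NonVan f := by
  intro γ hγ t ht
  obtain ⟨L, hLM, hLN⟩ := S.exists_levelData three_le_M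
  have : L.G.FiniteIndex := by
    rw [LevelM.LevelData.G]
    have : NeZero L.B.N := ⟨by rw [hLN]; exact NeZero.ne S.N₀⟩
    have : (sgnGamma L.B.N).FiniteIndex :=
      Subgroup.finiteIndex_of_le (LevelM.Gamma_le_sgnGamma L.B.N)
    infer_instance
  let : Fintype (SL(2, ℤ) ⧸ L.G) := Subgroup.fintypeQuotientOfFiniteIndex
  obtain ⟨D, hD⟩ := exists_sepData S L (Γ := L.G) le_rfl (r := 0) Fin.elim0 Fin.elim0
    (fun a => a.elim0) (fun a => a.elim0) (fun _ _ g hg hg' => absurd hg hg')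
    (fun _ _ g hg hg' => absurd hg hg')
  choose Y hY using fun q : SL(2, ℤ) => SerIn.exists_isSer hs q
  have hinv : Inv L.G (f ^ n) := fun g hg τ =>
    (charFun_pow_one hf).inv g (hLM ▸ hg.1) τ
  have hmem : (fun q : SL(2, ℤ) ⧸ L.G => ModularCurve.qExpand S.intRing S.N₀ (Y q.out⁻¹) ^ n) ∈
      fRing L.G (M * S.N₀) S.iotaO :=
    ⟨f ^ n, hinv, fun q => by
      have := pow_mem (hY q.out⁻¹).qsr n
      rw [Prod.pow_mk] at this
      exact this⟩
  have hq : ∀ g : SL(2, ℤ), ModularCurve.coeffMap (residue S.intRing)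
      (ModularCurve.qExpand S.intRing S.N₀ (Y (QuotientGroup.mk g⁻¹ : SL(2, ℤ) ⧸ L.G).out⁻¹) ^ n)
      = 0 ↔ ModularCurve.coeffMap (residue S.intRing) (Y g) = 0 := by
    intro g
    have e : ModularCurve.qExpand S.intRing S.N₀
        (Y (QuotientGroup.mk g⁻¹ : SL(2, ℤ) ⧸ L.G).out⁻¹) ^ n =
        ModularCurve.qExpand S.intRing S.N₀ (Y g) ^ n := by
      refine qsr_unique (h := M * S.N₀) S.iotaO_injective (f := fun τ => (f ^ n) (g • τ)) ?_ ?_
      · have := pow_mem (hY (QuotientGroup.mk g⁻¹ : SL(2, ℤ) ⧸ L.G).out⁻¹).qsr n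
        rw [Prod.pow_mk] at this
        convert this using 2
        funext τ
        have h1 := tr_mk hinv g⁻¹ τ
        rw [inv_inv] at h1
        exact h1.symm
      · have := pow_mem (hY g).qsr n
        rwa [Prod.pow_mk] at this
    rw [e, map_pow, ModularCurve.coeffMap_qExpand, pow_eq_zero_iff (Fact.out : n.Prime).ne_zero,
      map_eq_zero_iff _ (ModularCurve.qExpand_injective (R := ResidueField S.intRing) S.N₀)]
  by_contra hall
  push Not at hall
  have h0 : ModularCurve.coeffMap (residue S.intRing) (Y γ) = 0 :=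
    coeffMap_residue_eq_zero_iff.2 (by rw [(hY γ).coeffMap_eq ht]; exact hall)
  have hq₀ : (QuotientGroup.mk γ⁻¹ : SL(2, ℤ) ⧸ L.G).out ∈ sgnGamma L.B.N := by
    obtain ⟨⟨g, hg⟩, hgγ⟩ := QuotientGroup.mk_out_eq_mul L.G γ⁻¹
    rw [hgγ]
    exact mul_mem (inv_mem (by rw [hLN]; exact hγ)) hg.2
  have h1 := D.red_injective_of_mem hmem hq₀ (by rw [hD]; exact (hq γ).2 h0)
    (QuotientGroup.mk δ⁻¹)
  rw [hD] at h1
  obtain ⟨i, hi⟩ := hne
  refine hi ?_
  rw [← (hY δ).coeffMap_eq hδ]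
  exact coeffMap_residue_eq_zero_iff.1 ((hq δ).1 h1) i

/-- **Congruent functions have the same character.** -/
theorem Setting.chr_eq_of_congr (S : Setting M) (hn : 5 ≤ n) (hnp : n ≠ S.p)
    (hfam : ∀ χ : Chr M n, S.GoodFam χ) {χ₁ χ₂ : Chr M n} {f₁ f₂ : ℍ → ℂ}
    (hf₁ : IsCharFun χ₁.toHom f₁) (hf₂ : IsCharFun χ₂.toHom f₂) (hs₁ : S.SerIn f₁)
    (hs₂ : S.SerIn f₂) {s₁ s₂ : LaurentSeries ℚbar}
    (h₁ : HasExp M f₁ (ModularCurve.coeffMap eQ s₁))
    (h₂ : HasExp M f₂ (ModularCurve.coeffMap eQ s₂))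
    (hcongr : ∀ i, s₁.coeff i - s₂.coeff i ∈ S.A.nonunits)
    (hne : ∃ i, s₁.coeff i ∉ S.A.nonunits) : χ₁ = χ₂ := by
  have : NeZero n := ⟨(Fact.out : n.Prime).ne_zero⟩
  obtain ⟨L, hLM, hLN⟩ := S.exists_levelData three_le_M
  -- the common kernel
  let ψ : sgnGamma1 M →* rootsOfUnity n ℂ × rootsOfUnity n ℂ :=
    MonoidHom.prod
      (χ₁.toHom.codRestrict _ fun x => (mem_rootsOfUnity n _).2 (DFunLike.congr_fun χ₁.pow_eq x))
      (χ₂.toHom.codRestrict _ fun x => (mem_rootsOfUnity n _).2 (DFunLike.congr_fun χ₂.pow_eq x))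
  let K : Subgroup SL(2, ℤ) := ψ.ker.map (sgnGamma1 M).subtype
  have hK : ∀ g : sgnGamma1 M, (g : SL(2, ℤ)) ∈ K ↔ χ₁.toHom g = 1 ∧ χ₂.toHom g = 1 := by
    intro g
    refine (Subgroup.mem_map_iff_mem (f := (sgnGamma1 M).subtype) Subtype.val_injective
      (K := ψ.ker) (x := g)).trans ?_
    simp [ψ, Prod.ext_iff, Subtype.ext_iff]
  have : (sgnGamma L.B.N).FiniteIndex := by
    have : NeZero L.B.N := ⟨by rw [hLN]; exact NeZero.ne S.N₀⟩
    exact Subgroup.finiteIndex_of_le (LevelM.Gamma_le_sgnGamma L.B.N)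
  have : L.G.FiniteIndex := by rw [LevelM.LevelData.G]; infer_instance
  have : K.FiniteIndex := ⟨by
    rw [Subgroup.index_map_subtype]
    exact Nat.mul_ne_zero (Subgroup.FiniteIndex.index_ne_zero (H := ψ.ker))
      (Subgroup.FiniteIndex.index_ne_zero (H := sgnGamma1 M))⟩
  set Γ := L.G ⊓ K with hΓ
  let : Fintype (SL(2, ℤ) ⧸ Γ) := Subgroup.fintypeQuotientOfFiniteIndex
  have hinv : ∀ {χ : Chr M n} {f : ℍ → ℂ}, (χ = χ₁ ∨ χ = χ₂) → IsCharFun χ.toHom f → Inv Γ f := by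
    intro χ f hχ hf g hg τ
    have hg1 : g ∈ sgnGamma1 M := hLM ▸ hg.1.1
    have hk := (hK ⟨g, hg1⟩).1 hg.2
    have h1 : χ.toHom ⟨g, hg1⟩ = 1 := by rcases hχ with rfl | rfl; exacts [hk.1, hk.2]
    rw [show g • τ = ((⟨g, hg1⟩ : sgnGamma1 M) : SL(2, ℤ)) • τ from rfl, hf.map_smul, h1,
      Units.val_one, one_mul]
  -- the families
  obtain ⟨r₁, u, hu, hu0⟩ := hfam χ₁
  obtain ⟨r₂, w, hw, hw0⟩ := hfam χ₂
  set F := Fin.append u w
  choose Yu hYu using fun a γ => SerIn.exists_isSer (hu a).2.1 γ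
  choose Yw hYw using fun a γ => SerIn.exists_isSer (hw a).2.1 γ
  let Y : Fin (r₁ + r₂) → SL(2, ℤ) → LaurentSeries S.intRing := fun a γ =>
    ModularCurve.qExpand S.intRing S.N₀ (Fin.append Yu Yw a γ)
  have hqinj := ModularCurve.qExpand_injective (R := ResidueField S.intRing) S.N₀
  have hnv : ∀ {χ : Chr M n} {f : ℍ → ℂ} {γ : SL(2, ℤ)} {y : LaurentSeries S.intRing},
      IsCharFun χ.toHom f → S.NonVan f → γ ∈ sgnGamma L.B.N →
      S.IsSer (fun τ => f (γ • τ)) y → ModularCurve.coeffMap (residue S.intRing) y ≠ 0 := by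
    intro χ f γ y hf hnvf hγ hy h0
    obtain ⟨i, hi⟩ := hnvf γ (hLN ▸ hγ) (ModularCurve.coeffMap S.intIncl y)
      (by rw [ModularCurve.coeffMap_coeffMap]; exact hy)
    exact hi (coeffMap_residue_eq_zero_iff.1 h0 i)
  -- one step of the reduced separation
  have hstep : ∀ {χ : Chr M n} {f : ℍ → ℂ} {γ : SL(2, ℤ)} (g : sgnGamma1 M)
      {y y' : LaurentSeries S.intRing}, IsCharFun χ.toHom f →
      S.IsSer (fun τ => f (γ • τ)) y → S.IsSer (fun τ => f (((g : SL(2, ℤ)) * γ) • τ)) y' →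
      ModularCurve.coeffMap (residue S.intRing) y ≠ 0 →
      χ.toHom g ≠ 1 →
      ModularCurve.coeffMap (residue S.intRing) y' ≠
        ModularCurve.coeffMap (residue S.intRing) y := by
    intro χ f γ g y y' hf hy hy' hy0 hg he
    obtain ⟨c, hc, hyc⟩ := hy.exists_ratio hy' (hf.comp_mul g γ) hy0
    have hcn : c ^ n = 1 := S.iotaO_injective (by
      rw [map_pow, hc, map_one]; exact χ.apply_pow g)
    have h1 : residue S.intRing c = residue S.intRing 1 := by
      rw [hyc, map_mul, HahnSeries.C_apply, ModularCurve.coeffMap_single,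
        ← HahnSeries.C_apply] at he
      have := mul_right_cancel₀ hy0 (he.trans (one_mul _).symm)
      rw [← map_one (HahnSeries.C (Γ := ℤ))] at this
      rw [HahnSeries.C_injective this, map_one]
    have := eq_of_residue_eq hnp hcn (one_pow n) h1
    rw [this, map_one] at hc
    exact hg (Units.ext hc.symm)
  obtain ⟨D, hD⟩ := exists_sepData S L (Γ := Γ) inf_le_left F Y
    (Fin.addCases (fun a => by simpa [F] using hinv (Or.inl rfl) (hu a).1)
      (fun a => by simpa [F] using hinv (Or.inr rfl) (hw a).1))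
    (fun a γ => by
      induction a using Fin.addCases with
      | left a => simpa [F, Y] using (hYu a γ).qsr
      | right a => simpa [F, Y] using (hYw a γ).qsr)
    (fun γ hγ g hg hg' τ => by
      have hg1 : g ∈ sgnGamma1 M := hLM ▸ hg.1
      have hne' : ¬ (χ₁.toHom ⟨g, hg1⟩ = 1 ∧ χ₂.toHom ⟨g, hg1⟩ = 1) := fun h =>
        hg' ⟨hg, (hK ⟨g, hg1⟩).2 h⟩
      have key : ∀ {χ : Chr M n} {f : ℍ → ℂ}, IsCharFun χ.toHom f → χ.toHom ⟨g, hg1⟩ ≠ 1 →
          f (γ • τ) ≠ 0 → f ((g * γ) • τ) ≠ f (γ • τ) := fun {χ f} hf hc h0 he => by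
        have h1 := congrFun (hf.comp_mul ⟨g, hg1⟩ γ) τ
        simp only at h1
        rw [he] at h1
        exact hc (Units.ext (mul_right_cancel₀ h0 (h1.symm.trans (one_mul _).symm)))
      by_cases h1 : χ₁.toHom ⟨g, hg1⟩ = 1
      · obtain ⟨a, ha⟩ := hw0 (γ • τ)
        exact ⟨Fin.natAdd r₁ a, by simpa [F] using key (hw a).1 (fun h => hne' ⟨h1, h⟩) ha⟩
      · obtain ⟨a, ha⟩ := hu0 (γ • τ)
        exact ⟨Fin.castAdd r₂ a, by simpa [F] using key (hu a).1 h1 ha⟩)
    (fun γ hγ g hg hg' => by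
      have hg1 : g ∈ sgnGamma1 M := hLM ▸ hg.1
      have hne' : ¬ (χ₁.toHom ⟨g, hg1⟩ = 1 ∧ χ₂.toHom ⟨g, hg1⟩ = 1) := fun h =>
        hg' ⟨hg, (hK ⟨g, hg1⟩).2 h⟩
      by_cases h1 : χ₁.toHom ⟨g, hg1⟩ = 1
      · obtain ⟨a, -⟩ := hw0 UpperHalfPlane.I
        refine ⟨Fin.natAdd r₁ a, ?_⟩
        simp only [Y, Fin.append_right, ModularCurve.coeffMap_qExpand]
        exact hqinj.ne (hstep ⟨g, hg1⟩ (hw a).1 (hYw a γ) (hYw a (g * γ))
          (hnv (hw a).1 (hw a).2.2 hγ (hYw a γ)) fun h => hne' ⟨h1, h⟩)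
      · obtain ⟨a, -⟩ := hu0 UpperHalfPlane.I
        refine ⟨Fin.castAdd r₂ a, ?_⟩
        simp only [Y, Fin.append_left, ModularCurve.coeffMap_qExpand]
        exact hqinj.ne (hstep ⟨g, hg1⟩ (hu a).1 (hYu a γ) (hYu a (g * γ))
          (hnv (hu a).1 (hu a).2.2 hγ (hYu a γ)) h1))
  -- the difference of the functions
  choose Y₁ hY₁ using fun q : SL(2, ℤ) => SerIn.exists_isSer hs₁ q
  choose Y₂ hY₂ using fun q : SL(2, ℤ) => SerIn.exists_isSer hs₂ q
  have hdinv : Inv Γ (f₁ - f₂) := fun g hg τ => by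
    simp only [Pi.sub_apply, hinv (Or.inl rfl) hf₁ g hg τ, hinv (Or.inr rfl) hf₂ g hg τ]
  set d : SL(2, ℤ) ⧸ Γ → LaurentSeries S.intRing := fun q =>
    ModularCurve.qExpand S.intRing S.N₀ (Y₁ q.out⁻¹ - Y₂ q.out⁻¹) with hd
  have hdmem : d ∈ fRing Γ (M * S.N₀) S.iotaO := ⟨f₁ - f₂, hdinv, fun q => by
    have := sub_mem (hY₁ q.out⁻¹).qsr (hY₂ q.out⁻¹).qsr
    rw [Prod.mk_sub_mk, ← map_sub] at this
    exact this⟩
  have hdq : ∀ g : SL(2, ℤ), d (QuotientGroup.mk g⁻¹) =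
      ModularCurve.qExpand S.intRing S.N₀ (Y₁ g - Y₂ g) := by
    intro g
    refine qsr_unique (h := M * S.N₀) S.iotaO_injective (f := fun τ => (f₁ - f₂) (g • τ)) ?_ ?_
    · have := sub_mem (hY₁ (QuotientGroup.mk g⁻¹ : SL(2, ℤ) ⧸ Γ).out⁻¹).qsr
        (hY₂ (QuotientGroup.mk g⁻¹ : SL(2, ℤ) ⧸ Γ).out⁻¹).qsr
      rw [Prod.mk_sub_mk, ← map_sub] at this
      convert this using 2
      funext τ
      have h1 := tr_mk hdinv g⁻¹ τ
      rw [inv_inv] at h1
      exact h1.symm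
    · have := sub_mem (hY₁ g).qsr (hY₂ g).qsr
      rw [Prod.mk_sub_mk, ← map_sub] at this
      exact this
  have e₁ := (hY₁ 1).coeffMap_eq (s := s₁) (by simpa using h₁)
  have e₂ := (hY₂ 1).coeffMap_eq (s := s₂) (by simpa using h₂)
  have hz : ModularCurve.coeffMap (residue S.intRing) (Y₁ 1 - Y₂ 1) = 0 := by
    refine coeffMap_residue_eq_zero_iff.2 fun i => ?_
    rw [map_sub, e₁, e₂, HahnSeries.coeff_sub]
    exact hcongr i
  have hy₁ : ModularCurve.coeffMap (residue S.intRing) (Y₁ 1) ≠ 0 := fun h0 => by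
    obtain ⟨i, hi⟩ := hne
    exact hi (e₁ ▸ coeffMap_residue_eq_zero_iff.1 h0 i)
  have hy₂ : ModularCurve.coeffMap (residue S.intRing) (Y₂ 1) ≠ 0 := by
    rw [map_sub, sub_eq_zero] at hz
    exact hz ▸ hy₁
  have hall := D.red_injective hdmem (by
    rw [hD, show Connected.one Γ = (QuotientGroup.mk (1 : SL(2, ℤ))⁻¹ : SL(2, ℤ) ⧸ Γ) by
      rw [inv_one], hdq, ModularCurve.coeffMap_qExpand, hz, map_zero])
  -- equality on the level group
  have hG : ∀ g : sgnGamma1 M, (g : SL(2, ℤ)) ∈ sgnGamma S.N₀ → χ₁.toHom g = χ₂.toHom g := by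
    intro g hg
    have h := hall (QuotientGroup.mk (g : SL(2, ℤ))⁻¹)
    rw [hD, hdq, ModularCurve.coeffMap_qExpand, map_eq_zero_iff _ hqinj, map_sub, sub_eq_zero] at h
    have hg' : (g : SL(2, ℤ)) = (g : SL(2, ℤ)) * 1 := (mul_one _).symm
    obtain ⟨c₁, hc₁, hy1c⟩ := (hY₁ 1).exists_ratio (hY₁ g) (by
      conv_lhs => rw [hg']
      exact hf₁.comp_mul g 1) hy₁
    obtain ⟨c₂, hc₂, hy2c⟩ := (hY₂ 1).exists_ratio (hY₂ g) (by
      conv_lhs => rw [hg']
      exact hf₂.comp_mul g 1) hy₂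
    rw [hy1c, hy2c, map_mul, map_mul, HahnSeries.C_apply, HahnSeries.C_apply,
      ModularCurve.coeffMap_single, ModularCurve.coeffMap_single, ← HahnSeries.C_apply,
      ← HahnSeries.C_apply] at h
    rw [map_sub, sub_eq_zero] at hz
    rw [← hz] at h
    have hc := HahnSeries.C_injective (mul_right_cancel₀ hy₁ h)
    have hc₁n : c₁ ^ n = 1 := S.iotaO_injective (by
      rw [map_pow, hc₁, map_one]; exact χ₁.apply_pow g)
    have hc₂n : c₂ ^ n = 1 := S.iotaO_injective (by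
      rw [map_pow, hc₂, map_one]; exact χ₂.apply_pow g)
    rw [eq_of_residue_eq hnp hc₁n hc₂n hc, hc₂] at hc₁
    exact Units.ext hc₁.symm
  refine Chr.apply_eq fun g => ?_
  have h12 : χ₁.toHom (g ^ 12) = χ₂.toHom (g ^ 12) :=
    hG _ (by
      rw [SubmonoidClass.coe_pow]
      exact pow_twelve_mem_sgnGamma S.hN₀ _)
  rw [map_pow, map_pow] at h12
  have hx12 : (χ₁.toHom g * (χ₂.toHom g)⁻¹) ^ 12 = 1 := by
    rw [mul_pow, inv_pow, h12, mul_inv_cancel]
  have hxn : (χ₁.toHom g * (χ₂.toHom g)⁻¹) ^ n = 1 := by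
    have e1 := DFunLike.congr_fun χ₁.pow_eq g
    have e2 := DFunLike.congr_fun χ₂.pow_eq g
    simp only [MonoidHom.pow_apply, MonoidHom.one_apply] at e1 e2
    rw [mul_pow, inv_pow, e1, e2, inv_one, one_mul]
  have hg := pow_gcd_eq_one.2 ⟨hx12, hxn⟩
  have hcop : Nat.gcd 12 n = 1 := by
    refine Nat.Coprime.symm ((Fact.out : n.Prime).coprime_iff_not_dvd.2 fun h => ?_)
    rcases (Fact.out : n.Prime).dvd_mul.1 (show n ∣ 4 * 3 from h) with h4 | h3
    · have := Nat.le_of_dvd (by norm_num) h4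
      omega
    · have := Nat.le_of_dvd (by norm_num) h3
      omega
  rw [hcop, pow_one] at hg
  exact mul_inv_eq_one.1 hg

end Fermat.Agent.DeligneSerre
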