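import Mathlib
import Fermat.Prelude.Def_ModularCurve_LaurentCoeff

/-!
# Laurent series with bounded denominators

`bddSub O` consists of the series over `Frac O` which a nonzero element of `O` makes integral.
-/

set_option autoImplicit false

noncomputable section

namespace Fermat.Agent.DeligneSerre

variable (O : Type) {E : Type} [CommRing O] [IsDomain O] [Field E] [Algebra O E]
  [IsFractionRing O E]

/-- Series with bounded denominators. -/
def bddSub : Subring (LaurentSeries E) where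
  carrier := {s | ∃ b : O, b ≠ 0 ∧ ∀ i, ∃ a : O, algebraMap O E a = algebraMap O E b * s.coeff i}
  zero_mem' := ⟨1, one_ne_zero, fun i => ⟨0, by simp⟩⟩
  one_mem' := ⟨1, one_ne_zero, fun i => by
    rcases eq_or_ne i 0 with rfl | hi
    · exact ⟨1, by simp⟩
    · exact ⟨0, by simp [HahnSeries.coeff_one, hi]⟩⟩
  neg_mem' := by
    rintro s ⟨b, hb, h⟩
    refine ⟨b, hb, fun i => ?_⟩
    obtain ⟨a, ha⟩ := h i
    exact ⟨-a, by simp [ha]⟩
  add_mem' := by
    rintro s t ⟨b, hb, h⟩ ⟨c, hc, h'⟩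
    refine ⟨b * c, mul_ne_zero hb hc, fun i => ?_⟩
    obtain ⟨a, ha⟩ := h i
    obtain ⟨a', ha'⟩ := h' i
    exact ⟨a * c + a' * b, by simp [ha, ha']; ring⟩
  mul_mem' := by
    rintro s t ⟨b, hb, h⟩ ⟨c, hc, h'⟩
    refine ⟨b * c, mul_ne_zero hb hc, fun i => ?_⟩
    choose a ha using h
    choose a' ha' using h'
    refine ⟨∑ p ∈ Finset.antidiagonal s.isPWO_support t.isPWO_support i, a p.1 * a' p.2, ?_⟩
    rw [HahnSeries.coeff_mul, map_sum, Finset.mul_sum]
    exact Finset.sum_congr rfl fun p _ => by rw [map_mul, ha, ha', map_mul]; ring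

omit [IsFractionRing O E] in
theorem mem_bddSub {s : LaurentSeries E} : s ∈ bddSub O ↔
    ∃ b : O, b ≠ 0 ∧ ∀ i, ∃ a : O, algebraMap O E a = algebraMap O E b * s.coeff i :=
  Iff.rfl

variable {O}

omit [IsFractionRing O E] in
theorem coeffMap_mem_bddSub (t : LaurentSeries O) :
    ModularCurve.coeffMap (algebraMap O E) t ∈ bddSub (E := E) O :=
  ⟨1, one_ne_zero, fun i => ⟨t.coeff i, by simp⟩⟩

/-- Constants have bounded denominators. -/
theorem C_mem_bddSub (x : E) : HahnSeries.C x ∈ bddSub (E := E) O := by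
  obtain ⟨a, b, hb, rfl⟩ := IsFractionRing.div_surjective (A := O) x
  refine ⟨b, nonZeroDivisors.ne_zero hb, fun i => ?_⟩
  rcases eq_or_ne i 0 with rfl | hi
  · exact ⟨a, by
      have hb0 : algebraMap O E b ≠ 0 := IsFractionRing.to_map_ne_zero_of_mem_nonZeroDivisors hb
      simp
      field_simp⟩
  · exact ⟨0, by simp [HahnSeries.C_apply, HahnSeries.coeff_single_of_ne hi]⟩

omit [IsFractionRing O E] in
theorem single_mem_bddSub (k : ℤ) (a : O) :
    HahnSeries.single k (algebraMap O E a) ∈ bddSub (E := E) O := by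
  refine ⟨1, one_ne_zero, fun i => ?_⟩
  rcases eq_or_ne i k with rfl | hi
  · exact ⟨a, by simp⟩
  · exact ⟨0, by simp [HahnSeries.coeff_single_of_ne hi]⟩

end Fermat.Agent.DeligneSerre
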