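import Fermat.Agent.DeligneSerre.Local.Defs
import Fermat.Agent.DeligneSerre.FunTwist

/-!
# Bounded denominators for functions of level `±Γ(L)`

If all expansions of a function of level `±Γ(L)` have coefficients in `E = Frac O`, with `L`
invertible in the discrete valuation ring `O ∋ exp (2πi/L)`, then they have bounded denominators.
-/

set_option autoImplicit false

noncomputable section

open Complex Function
open UpperHalfPlane hiding I
open scoped MatrixGroups Manifold ModularForm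

namespace Fermat.Agent.DeligneSerre

open Fermat.Agent.Igusa (HasExp QSR mem_QSR)
open Fermat.Agent.LevelM (sgnGamma IsFormOn ex)

attribute [local instance] Classical.decEq

local notation "Δf" => ModularForm.discriminant

section Algebra

variable {O E : Type} [CommRing O] [IsDomain O] [Field E] [Algebra O E] [IsFractionRing O E]

variable (O E) in
/-- Power series over `O` as Laurent series over `E`. -/
def psMap : PowerSeries O →+* LaurentSeries E :=
  (ModularCurve.coeffMap (algebraMap O E)).comp (HahnSeries.ofPowerSeries ℤ O)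

theorem psMap_injective : Function.Injective (psMap O E) := fun p q h => by
  refine PowerSeries.ext fun n => IsFractionRing.injective O E ?_
  simpa [psMap, HahnSeries.ofPowerSeries_apply_coeff] using
    congrArg (fun s => HahnSeries.coeff s (n : ℤ)) h

omit [IsFractionRing O E] in
theorem psMap_mem_bddSub (p : PowerSeries O) : psMap O E p ∈ bddSub (E := E) O :=
  coeffMap_mem_bddSub _

/-- Clearing denominators. -/
theorem exists_mul_eq_psMap {s : LaurentSeries E} (hs : s ∈ bddSub O) :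
    ∃ (u : PowerSeries O) (v : LaurentSeries E), v ∈ bddSub O ∧ psMap O E u * v = 1 ∧
      psMap O E u * s ∈ (psMap O E).range := by
  obtain ⟨b, hb, h⟩ := mem_bddSub O |>.1 hs
  choose a ha using h
  have hb' : algebraMap O E b ≠ 0 := fun h0 =>
    hb (IsFractionRing.injective O E (by rw [h0, map_zero]))
  obtain ⟨k, hk⟩ : ∃ k : ℕ, ∀ i : ℤ, i < -(k : ℤ) → s.coeff i = 0 := by
    refine ⟨(-s.order).toNat, fun i hi => HahnSeries.coeff_eq_zero_of_lt_order ?_⟩
    omega
  have hu : psMap O E (PowerSeries.C b * PowerSeries.X ^ k)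
      = HahnSeries.single (k : ℤ) (algebraMap O E b) := by
    simp [psMap, HahnSeries.ofPowerSeries_C, HahnSeries.ofPowerSeries_X_pow,
      HahnSeries.C_apply, ModularCurve.coeffMap_single]
  refine ⟨PowerSeries.C b * PowerSeries.X ^ k,
    HahnSeries.C (algebraMap O E b)⁻¹ * HahnSeries.single (-(k : ℤ)) 1, ?_, ?_, ?_⟩
  · refine mul_mem (C_mem_bddSub _) ?_
    simpa using single_mem_bddSub (E := E) (-(k : ℤ)) (1 : O)
  · rw [hu, HahnSeries.C_apply, HahnSeries.single_mul_single, HahnSeries.single_mul_single]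
    simp [hb']
  · refine ⟨PowerSeries.mk fun n => a ((n : ℤ) - k), ?_⟩
    rw [hu]
    ext i
    have e : ((i : ℤ) - k) + k = i := by ring
    rw [← e, HahnSeries.coeff_single_mul_add, e]
    rcases lt_or_ge i 0 with hi | hi
    · rw [hk _ (by omega), mul_zero]
      simp [psMap, ModularCurve.ofPowerSeries_coeff_of_neg _ hi]
    · obtain ⟨n, rfl⟩ := Int.eq_ofNat_of_zero_le hi
      simp [psMap, HahnSeries.ofPowerSeries_apply_coeff, ha]

variable [IsPrincipalIdealRing O]

/-- `bddSub` is integrally closed in its fraction field. -/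
theorem mem_bddSub_of_monic {n : ℕ} (hn : n ≠ 0) {a : ℕ → LaurentSeries E}
    (ha : ∀ m, a m ∈ bddSub O) {S P D : LaurentSeries E} (hD : D ∈ bddSub O) (hD0 : D ≠ 0)
    (hP : P ∈ bddSub O) (h : S * D = P)
    (hr : S ^ n + ∑ m ∈ Finset.range n, a m * S ^ (n - 1 - m) = 0) : S ∈ bddSub O := by
  choose ua va hva huva hra using fun m => exists_mul_eq_psMap (ha m)
  obtain ⟨uD, vD, -, huvD, D', hD'⟩ := exists_mul_eq_psMap hD
  obtain ⟨uP, vP, hvP, huvP, P', hP'⟩ := exists_mul_eq_psMap hP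
  set U := uP * ∏ m ∈ Finset.range n, ua m with hU
  set V := vP * ∏ m ∈ Finset.range n, va m with hV
  have hUV : psMap O E U * V = 1 := by
    rw [hU, hV, map_mul, map_prod, mul_mul_mul_comm, huvP, ← Finset.prod_mul_distrib,
      Finset.prod_congr rfl fun m _ => huva m, Finset.prod_const_one, mul_one]
  have hVm : V ∈ bddSub O := mul_mem hvP (prod_mem fun m _ => hva m)
  set T := psMap O E U * S with hT
  have hS : S = V * T := by rw [hT, ← mul_assoc, mul_comm V, hUV, one_mul]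
  suffices T ∈ (psMap O E).range by
    obtain ⟨y, hy⟩ := this
    rw [hS, ← hy]
    exact mul_mem hVm (psMap_mem_bddSub y)
  -- `T` is a quotient
  have hD'0 : D' ≠ 0 := by
    rintro rfl
    rw [map_zero, zero_eq_mul] at hD'
    rcases hD' with h' | h'
    · rw [h', zero_mul] at huvD; exact zero_ne_one huvD
    · exact hD0 h'
  set P'' := P' * uD * ∏ m ∈ Finset.range n, ua m with hP''
  have hTD : T * psMap O E D' = psMap O E P'' := by
    rw [hP'', hT, hU, map_mul, map_mul, map_mul, hP', hD', ← h]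
    ring
  have hc : ∀ m ∈ Finset.range n, a m * psMap O E U ^ (m + 1) ∈ (psMap O E).range := by
    intro m hm
    rw [pow_succ', ← mul_assoc]
    refine mul_mem ?_ (pow_mem (RingHom.mem_range_self _ _) _)
    rw [hU, ← Finset.mul_prod_erase _ _ hm, map_mul, map_mul, mul_left_comm (psMap O E uP),
      ← mul_assoc, mul_comm (a m)]
    exact mul_mem (hra m) (mul_mem (RingHom.mem_range_self _ _) (RingHom.mem_range_self _ _))
  have hc' : ∀ m, ∃ c : PowerSeries O, m ∈ Finset.range n →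
      psMap O E c = a m * psMap O E U ^ (m + 1) := fun m => by
    by_cases hm : m ∈ Finset.range n
    · obtain ⟨c, hc⟩ := hc m hm
      exact ⟨c, fun _ => hc⟩
    · exact ⟨0, fun h => absurd h hm⟩
  choose c hc using hc'
  -- integrality
  let K := FractionRing (PowerSeries O)
  let ψ : K →+* LaurentSeries E := IsFractionRing.lift (psMap_injective (O := O) (E := E))
  have hψ : ∀ y : PowerSeries O, ψ (algebraMap (PowerSeries O) K y) = psMap O E y := fun y =>
    IsFractionRing.lift_algebraMap _ y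
  set x : K := algebraMap (PowerSeries O) K P'' / algebraMap (PowerSeries O) K D' with hx
  have hx' : ψ x = T := by
    rw [hx, map_div₀, hψ, hψ, ← hTD, mul_div_assoc, div_self, mul_one]
    exact (map_ne_zero_iff _ psMap_injective).2 hD'0
  have hint : IsIntegral (PowerSeries O) x := by
    refine ⟨Polynomial.X ^ n +
      ∑ m ∈ Finset.range n, Polynomial.C (c m) * Polynomial.X ^ (n - 1 - m), ?_, ?_⟩
    · refine Polynomial.monic_X_pow_add
        ((Polynomial.degree_sum_le _ _).trans_lt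
          ((Finset.sup_lt_iff (WithBot.bot_lt_coe n)).2 fun m _ => ?_))
      refine (Polynomial.degree_C_mul_X_pow_le _ _).trans_lt ?_
      exact WithBot.coe_lt_coe.2 (show n - 1 - m < n by omega)
    · apply ψ.injective
      rw [map_zero, Polynomial.eval₂_add, Polynomial.eval₂_X_pow, map_add, map_pow, hx',
        Polynomial.eval₂_finsetSum, map_sum]
      have key : psMap O E U ^ n *
          (S ^ n + ∑ m ∈ Finset.range n, a m * S ^ (n - 1 - m)) = 0 := by rw [hr, mul_zero]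
      rw [mul_add, ← mul_pow, ← hT, Finset.mul_sum] at key
      rw [← key]
      congr 1
      refine Finset.sum_congr rfl fun m hm => ?_
      rw [Polynomial.eval₂_mul, Polynomial.eval₂_C, Polynomial.eval₂_X_pow, map_mul, map_pow,
        hψ, hx', hc m hm, hT, mul_pow,
        show psMap O E U ^ n = psMap O E U ^ (m + 1) * psMap O E U ^ (n - 1 - m) by
          rw [← pow_add]; congr 1; have := Finset.mem_range.1 hm; omega]
      ring
  obtain ⟨y, hy⟩ := IsIntegrallyClosed.isIntegral_iff.1 hint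
  exact ⟨y, by rw [← hψ, hy, hx']⟩

end Algebra

section Series

variable {O E : Type} [CommRing O] [IsDomain O] [Field E] [Algebra O E] [IsFractionRing O E]
  {L : ℕ} [NeZero L] (ι : E →+* ℂ)

variable (L) in
/-- Functions with an expansion over `E`. -/
def expFun : Subring (ℍ → ℂ) := (QSR L ι).map (RingHom.fst _ _)

variable (O L) in
/-- Functions with an expansion over `E` with bounded denominators. -/
def bddFun : Subring (ℍ → ℂ) :=
  (QSR L ι ⊓ (bddSub (E := E) O).comap (RingHom.snd _ _)).map (RingHom.fst _ _)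

variable {ι}

omit [NeZero L] in
theorem mem_expFun {f : ℍ → ℂ} : f ∈ expFun L ι ↔ ∃ t, (f, t) ∈ QSR L ι :=
  ⟨fun ⟨⟨_, t⟩, h, e⟩ => ⟨t, by cases e; exact h⟩, fun ⟨t, h⟩ => ⟨(f, t), h, rfl⟩⟩

omit [NeZero L] [IsFractionRing O E] in
theorem mem_bddFun {f : ℍ → ℂ} :
    f ∈ bddFun O L ι ↔ ∃ t ∈ bddSub (E := E) O, (f, t) ∈ QSR L ι :=
  ⟨fun ⟨⟨_, t⟩, h, e⟩ => ⟨t, h.2, by cases e; exact h.1⟩,
    fun ⟨t, ht, h⟩ => ⟨(f, t), ⟨h, ht⟩, rfl⟩⟩

omit [NeZero L] [IsFractionRing O E] in
theorem bddFun_le : bddFun O L ι ≤ expFun L ι :=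
  fun _ hf => let ⟨t, _, h⟩ := mem_bddFun.1 hf; mem_expFun.2 ⟨t, h⟩

theorem qsr_inj {f : ℍ → ℂ} {s t : LaurentSeries E} (hs : (f, s) ∈ QSR L ι)
    (ht : (f, t) ∈ QSR L ι) : s = t :=
  Connected.qsr_unique ι.injective hs ht

omit [NeZero L] [IsFractionRing O E] in
theorem bddFun_of_qsr {f : ℍ → ℂ} {t : LaurentSeries O}
    (h : (f, t) ∈ QSR L (ι.comp (algebraMap O E))) : f ∈ bddFun O L ι := by
  refine mem_bddFun.2 ⟨ModularCurve.coeffMap (algebraMap O E) t, coeffMap_mem_bddSub t, ?_⟩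
  rw [mem_QSR] at h ⊢
  rw [ModularCurve.coeffMap_coeffMap]
  exact h

theorem exists_left_inverse : ∃ π : ℂ →+ E, ∀ x, π (ι x) = x := by
  have : CharZero E := (RingHom.charZero_iff ι.injective).2 inferInstance
  obtain ⟨g, hg⟩ := ι.toRatAlgHom.toLinearMap.exists_leftInverse_of_injective
    (LinearMap.ker_eq_bot.2 ι.injective)
  exact ⟨g.toAddMonoidHom, fun x => LinearMap.congr_fun hg x⟩

theorem exists_den (π : ℂ →+ E) {k : ℤ} {f : ℍ → ℂ} (hf : MFCore.IsLevelOne k f) :
    ∃ b : O, b ≠ 0 ∧ ∀ n, ∃ a : O,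
      algebraMap O E a = algebraMap O E b * π ((MFCore.qExp f).coeff n) := by
  suffices ∀ (g : ModularForm 𝒮ℒ k) (c : ℂ), ∃ b : O, b ≠ 0 ∧ ∀ n, ∃ a : O,
      algebraMap O E a = algebraMap O E b * π (c * (MFCore.qExp g).coeff n) by
    simpa using this hf.toModularForm 1
  intro g
  have hg : g ∈ Submodule.span ℂ
      {f : ModularForm 𝒮ℒ k | ∀ n : ℕ, ∃ m : ℤ, (qExpansion 1 f).coeff n = (m : ℂ)} := by
    rw [LevelOne.span_intCoeffForms]; trivial
  induction hg using Submodule.span_induction with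
  | mem x hx =>
    intro c
    obtain ⟨a, b, hb, hab⟩ := IsFractionRing.div_surjective (A := O) (π c)
    refine ⟨b, nonZeroDivisors.ne_zero hb, fun n => ?_⟩
    obtain ⟨m, hm⟩ := hx n
    refine ⟨m * a, ?_⟩
    rw [MFCore.qExp, hm, show π (c * (m : ℂ)) = (m : E) * π c by
      rw [mul_comm, ← zsmul_eq_mul, map_zsmul, zsmul_eq_mul], map_mul, map_intCast, ← hab]
    have hb0 : algebraMap O E b ≠ 0 := IsFractionRing.to_map_ne_zero_of_mem_nonZeroDivisors hb
    field_simp
  | zero =>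
    exact fun c => ⟨1, one_ne_zero, fun n => ⟨0, by simp [MFCore.qExp, qExpansion_zero]⟩⟩
  | add x y _ _ hx hy =>
    intro c
    obtain ⟨b, hb, h⟩ := hx c
    obtain ⟨b', hb', h'⟩ := hy c
    refine ⟨b * b', mul_ne_zero hb hb', fun n => ?_⟩
    obtain ⟨a, ha⟩ := h n
    obtain ⟨a', ha'⟩ := h' n
    refine ⟨b' * a + b * a', ?_⟩
    rw [FunLike.coe_add, MFCore.qExp_add (MFCore.isLevelOne_modularForm x).isQ
      (MFCore.isLevelOne_modularForm y).isQ, map_add (PowerSeries.coeff n), mul_add, map_add π,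
      map_add (algebraMap O E),
      map_mul, map_mul, map_mul, ha, ha']
    ring
  | smul d x _ hx =>
    intro c
    obtain ⟨b, hb, h⟩ := hx (c * d)
    refine ⟨b, hb, fun n => ?_⟩
    obtain ⟨a, ha⟩ := h n
    refine ⟨a, ha.trans ?_⟩
    rw [FunLike.coe_smul, MFCore.qExp_smul (MFCore.isLevelOne_modularForm x).isQ,
      PowerSeries.coeff_smul, smul_eq_mul, mul_assoc]

/-- Forms of level one with coefficients in `E` have bounded denominators. -/
theorem bddFun_of_levelOne {k : ℤ} {f : ℍ → ℂ} (hf : MFCore.IsLevelOne k f)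
    (hfe : f ∈ expFun L ι) : f ∈ bddFun O L ι := by
  obtain ⟨t, ht⟩ := mem_expFun.1 hfe
  obtain ⟨π, hπ⟩ := exists_left_inverse (ι := ι)
  obtain ⟨b, hb, hden⟩ := exists_den (O := O) π hf
  refine mem_bddFun.2 ⟨t, ⟨b, hb, fun i => ?_⟩, ht⟩
  have e : ModularCurve.coeffMap ι t = ModularCurve.qExpand ℂ L
      (HahnSeries.ofPowerSeries ℤ ℂ (MFCore.qExp f)) :=
    (mem_QSR.1 ht).unique
      (LevelM.hasExp_expand (Igusa.hasExp_modularForm hf.toModularForm rfl) L (one_mul L))
  have ei : t.coeff i = π ((ModularCurve.qExpand ℂ L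
      (HahnSeries.ofPowerSeries ℤ ℂ (MFCore.qExp f))).coeff i) := by
    rw [← e, ModularCurve.coeffMap_coeff, hπ]
  by_cases hi : (L : ℤ) ∣ i
  · obtain ⟨j, rfl⟩ := hi
    rw [ei, ModularCurve.qExpand_coeff_mul]
    rcases lt_or_ge j 0 with hj | hj
    · exact ⟨0, by rw [ModularCurve.ofPowerSeries_coeff_of_neg _ hj]; simp⟩
    · obtain ⟨n, rfl⟩ := Int.eq_ofNat_of_zero_le hj
      obtain ⟨a, ha⟩ := hden n
      exact ⟨a, by rw [ha, HahnSeries.ofPowerSeries_apply_coeff]⟩
  · exact ⟨0, by rw [ei, ModularCurve.qExpand_coeff_of_not_dvd _ _ hi]; simp⟩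

variable [IsPrincipalIdealRing O]

/-- The interpolation argument. -/
theorem bddFun_of_formOn {k w : ℤ} {F G : ℍ → ℂ} (hF : IsFormOn (sgnGamma L) k F)
    (hG : IsFormOn (sgnGamma L) w G)
    (hinj : Function.Injective (LevelM.conjOn (Γ := sgnGamma L) w G))
    (hFe : ∀ γ : SL(2, ℤ), F ∣[k] γ ∈ expFun L ι)
    (hGb : ∀ γ : SL(2, ℤ), G ∣[w] γ ∈ bddFun O L ι) : F ∈ bddFun O L ι := by
  set n := Fintype.card (SL(2, ℤ) ⧸ sgnGamma L) with hn
  have hn0 : n ≠ 0 := Fintype.card_ne_zero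
  have hFc : ∀ q, LevelM.conjOn (Γ := sgnGamma L) k F q ∈ expFun L ι := fun q => hFe _
  have hGc : ∀ q, LevelM.conjOn (Γ := sgnGamma L) w G q ∈ bddFun O L ι := fun q => hGb _
  have hesF : ∀ m, LevelM.esymOn (sgnGamma L) k F m ∈ bddFun O L ι := fun m => by
    refine bddFun_of_levelOne (LevelM.esymOn_levelOne hF m) ?_
    rw [LevelM.esymOn, MFCore.esymm]
    exact sum_mem fun _ _ => prod_mem fun q _ => hFc q
  have hint : ∀ m, LevelM.interpOn (sgnGamma L) k w F G m ∈ bddFun O L ι := fun m => by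
    refine bddFun_of_levelOne (LevelM.interpOn_levelOne hF hG m) ?_
    rw [LevelM.interpOn, MFCore.interpCoeff]
    refine sum_mem fun q _ => mul_mem (hFc q) ?_
    rw [MFCore.esymm]
    exact sum_mem fun _ _ => prod_mem fun r _ => bddFun_le (hGc r)
  have hG1 : G ∈ bddFun O L ι := by simpa using hGb 1
  have hD : LevelM.diffProdOn (sgnGamma L) w G ∈ bddFun O L ι := by
    rw [LevelM.diffProdOn]
    exact prod_mem fun q _ => sub_mem hG1 (hGc q)
  have hFD : F * LevelM.diffProdOn (sgnGamma L) w G ∈ bddFun O L ι := by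
    rw [← LevelM.interpOn_eval hF.slash hG.slash]
    exact sum_mem fun m _ => mul_mem (mul_mem (pow_mem (neg_mem (one_mem _)) m) (hint m))
      (pow_mem hG1 _)
  obtain ⟨S, hS⟩ := mem_expFun.1 (show F ∈ expFun L ι by simpa using hFe 1)
  obtain ⟨D, hDb, hDq⟩ := mem_bddFun.1 hD
  obtain ⟨P, hPb, hPq⟩ := mem_bddFun.1 hFD
  refine mem_bddFun.2 ⟨S, ?_, hS⟩
  have hD0 : D ≠ 0 := by
    rintro rfl
    refine LevelM.diffProdOn_ne_zero hG hinj (hasExp_fun_unique (L := L) (mem_QSR.1 hDq) ?_)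
    exact mem_QSR.1 (zero_mem (QSR L ι))
  choose e heb heq using fun m : ℕ => mem_bddFun.1
    (mul_mem (pow_mem (neg_mem (one_mem (bddFun O L ι))) (m + 1)) (hesF (m + 1)))
  have hSD' : (F * LevelM.diffProdOn (sgnGamma L) w G, S * D) ∈ QSR L ι := by
    rw [← Prod.mk_mul_mk]
    exact mul_mem hS hDq
  have hSD : S * D = P := qsr_inj hSD' hPq
  refine mem_bddSub_of_monic (n := n) (a := e) hn0 heb hDb hD0 hPb hSD ?_
  have hsum : (F ^ n + ∑ m ∈ Finset.range n,
      (-1) ^ (m + 1) * LevelM.esymOn (sgnGamma L) k F (m + 1) * F ^ (n - 1 - m),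
      S ^ n + ∑ m ∈ Finset.range n, e m * S ^ (n - 1 - m)) ∈ QSR L ι := by
    have h' : (F, S) ^ n + ∑ m ∈ Finset.range n,
        ((-1 : ℍ → ℂ) ^ (m + 1) * LevelM.esymOn (sgnGamma L) k F (m + 1), e m) *
          (F, S) ^ (n - 1 - m) ∈ QSR L ι :=
      add_mem (pow_mem hS n) (sum_mem fun m _ => mul_mem (heq m) (pow_mem hS _))
    convert h' using 1
    exact Prod.ext (by simp [Prod.fst_sum]) (by simp [Prod.snd_sum])
  refine qsr_inj hsum ?_
  have h0 := LevelM.esymOn_eval (Γ := sgnGamma L) hF.slash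
  rw [Finset.sum_range_succ', ← hn] at h0
  have h00 : LevelM.esymOn (sgnGamma L) k F 0 = 1 := MFCore.esymm_zero _ _
  rw [h00, pow_zero, one_mul, one_mul, Nat.sub_zero, add_comm] at h0
  rw [show F ^ n + ∑ m ∈ Finset.range n,
      (-1) ^ (m + 1) * LevelM.esymOn (sgnGamma L) k F (m + 1) * F ^ (n - 1 - m) = 0 by
    refine Eq.trans ?_ h0
    congr 1
    exact Finset.sum_congr rfl fun m _ => by congr 2; omega]
  exact zero_mem (QSR L ι)

variable (ι)

omit [IsPrincipalIdealRing O] in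
/-- The expansions of the generator are integral. -/
theorem genG_slash_mem_bddFun (hL : 3 ≤ L) (hLu : IsUnit (L : O))
    (hζ : ∃ z : O, ι (algebraMap O E z) = ex ((1 : ℂ) / L)) (T : ℕ) (γ : SL(2, ℤ)) :
    LevelM.genG L 1 T ∣[(2 : ℤ)] γ ∈ bddFun O L ι := by
  obtain ⟨z, hz⟩ := hζ
  set ι' := ι.comp (algebraMap O E) with hι'
  have hinj : Function.Injective ι' := ι.injective.comp (IsFractionRing.injective O E)
  have hzu : IsUnit z := by
    refine IsUnit.of_pow_eq_one (n := L) (hinj ?_) (NeZero.ne L)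
    rw [map_pow, map_one]
    show ι (algebraMap O E z) ^ L = 1
    rw [hz, ← LevelM.ex_natCast_mul, mul_one_div_cancel (Nat.cast_ne_zero.2 (NeZero.ne L))]
    exact LevelM.ex_eq_one_iff.2 ⟨1, by simp⟩
  have hζ' : ι' (hzu.unit : O) = Complex.exp (2 * Real.pi * Complex.I / L) := by
    show ι (algebraMap O E z) = _
    rw [hz, ex]
    congr 1
    ring
  simp only [LevelM.genG, SlashAction.sum_slash, ModularForm.SL_smul_slash]
  refine sum_mem fun j _ => ?_
  rw [LevelM.pdiff_slash (LevelM.adm_genG isCoprime_one_left _)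
    (LevelM.adm_base hL isCoprime_one_left)]
  have hv := (LevelM.adm_genG (L := L) isCoprime_one_left
    ((Fintype.equivFin {p : Fin 2 → ZMod L // p ≠ 0}).symm j)).vmul γ
  have hw := (LevelM.adm_base (L := L) hL isCoprime_one_left).vmul γ
  rw [LevelM.vmul_vv] at hv hw
  rw [LevelM.vmul_vv, LevelM.vmul_vv]
  have hq := LevelM.qsr_pdiff hinj hζ' hLu hv hw (LevelM.vv_zero _ _) (LevelM.vv_one _ _)
    (LevelM.vv_zero _ _) (LevelM.vv_one _ _)
  have hb := bddFun_of_qsr (ι := ι) hq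
  convert mul_mem (pow_mem (natCast_mem (bddFun O L ι) T) (j : ℕ)) hb using 1
  funext τ
  simp

omit [IsPrincipalIdealRing O] [IsFractionRing O E] in
theorem expand_delta_mem (m : ℕ) :
    (fun τ => Δf τ ^ m) ∈ bddFun O L ι ∧ (fun τ => ((Δf τ)⁻¹) ^ m) ∈ bddFun O L ι := by
  have key : ∀ {f : ℍ → ℂ} (d : ∀ (R : Type) [CommRing R], LaurentSeries R),
      (∀ {R S : Type} [CommRing R] [CommRing S] (φ : R →+* S),
        ModularCurve.coeffMap φ (d R) = d S) →
      HasExp 1 f (d ℂ) → f ∈ bddFun O L ι := by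
    intro f d hd hf
    refine mem_bddFun.2 ⟨ModularCurve.qExpand E L (d E), ?_, mem_QSR.2 ?_⟩
    · rw [← hd (algebraMap O E), ← ModularCurve.coeffMap_qExpand]
      exact coeffMap_mem_bddSub _
    · rw [ModularCurve.coeffMap_qExpand, hd]
      exact LevelM.hasExp_expand hf L (one_mul L)
  exact ⟨pow_mem (key (fun R _ => Igusa.deltaR R) (fun φ => Igusa.coeffMap_deltaR φ)
      Igusa.hasExp_delta) m,
    pow_mem (key (fun R _ => Igusa.deltaInvR R) (fun φ => Igusa.coeffMap_deltaInvR φ)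
      Igusa.hasExp_deltaInv) m⟩

end Series

variable {O E : Type} [CommRing O] [IsDomain O] [IsDiscreteValuationRing O] [Field E]
  [Algebra O E] [IsFractionRing O E]

/-- **Bounded denominators.** -/
theorem series_mem_bddSub {L : ℕ} [NeZero L] (hL : 3 ≤ L) (hLu : IsUnit (L : O)) (ι : E →+* ℂ)
    (hζ : ∃ z : O, ι (algebraMap O E z) = ex ((1 : ℂ) / L))
    {g : ℍ → ℂ} (hg : IsFunOn L g) (s : SL(2, ℤ) → LaurentSeries E)
    (hs : ∀ γ : SL(2, ℤ), HasExp L (fun τ => g (γ • τ)) (ModularCurve.coeffMap ι (s γ)))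
    (γ : SL(2, ℤ)) : s γ ∈ bddSub (E := E) O := by
  obtain ⟨T, hinj⟩ := LevelM.exists_genG_injective hL
  obtain ⟨m, hm⟩ := hg.bdd
  set F : ℍ → ℂ := fun τ => Δf τ ^ m * g (γ • τ) with hF
  have hsl : ∀ δ : SL(2, ℤ),
      F ∣[((12 * m : ℕ) : ℤ)] δ = fun τ => Δf τ ^ m * g ((γ * δ) • τ) := fun δ => by
    rw [hF, discriminant_pow_slash m (fun τ => g (γ • τ)) δ]
    simp only [mul_smul]
  have hFform : IsFormOn (sgnGamma L) ((12 * m : ℕ) : ℤ) F := by
    refine ⟨(Igusa.hasExp_delta.1.pow m).mul (hg.mdiff_smul γ), fun δ hδ => ?_, fun δ => ?_⟩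
    · rw [hsl]
      funext τ
      rw [show γ * δ = (γ * δ * γ⁻¹) * γ by group, mul_smul,
        hg.inv _ ((inferInstance : (sgnGamma L).Normal).conj_mem δ hδ γ)]
    · rw [hsl]
      exact hm (γ * δ)
  have hFe : ∀ δ : SL(2, ℤ), F ∣[((12 * m : ℕ) : ℤ)] δ ∈ expFun L ι := fun δ => by
    rw [hsl]
    exact mul_mem (bddFun_le (expand_delta_mem (O := O) ι m).1)
      (mem_expFun.2 ⟨_, mem_QSR.2 (hs (γ * δ))⟩)
  have hFb := bddFun_of_formOn hFform
    (LevelM.genG_isForm hL isCoprime_one_left T) hinj hFe (genG_slash_mem_bddFun ι hL hLu hζ T)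
  obtain ⟨t, ht, hq⟩ := mem_bddFun.1 (mul_mem (expand_delta_mem (O := O) (L := L) ι m).2 hFb)
  have hfun : (fun τ => ((Δf τ)⁻¹) ^ m) * F = fun τ => g (γ • τ) := by
    funext τ
    have := ModularForm.discriminant_ne_zero τ
    simp only [hF, Pi.mul_apply, inv_pow]
    field_simp
  rw [hfun] at hq
  rwa [qsr_inj (mem_QSR.2 (hs γ)) hq]

end Fermat.Agent.DeligneSerre
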