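import Fermat.Agent.DeligneSerre.Local.Ser
import Fermat.Agent.DeligneSerre.Local.Algebra
import Fermat.Agent.DeligneSerre.Local.Denominators

/-!
# Integral families at a place

For a good prime there is a finite normal field of coefficients over which every character has a
family without common zero with integral expansions, each member being non zero modulo the place.
-/

set_option autoImplicit false

noncomputable section

open UpperHalfPlane hiding I
open scoped MatrixGroups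

namespace Fermat.Agent.DeligneSerre

open Setting (SerInSub)
open Fermat.Agent.Igusa (HasExp QS mem_QS)
open Fermat.Agent.LevelM (sgnGamma sgnGamma1 ex)

local notation "ℚbar" => AlgebraicClosure ℚ
local notation "Γℚ" => (AlgebraicClosure ℚ ≃ₐ[ℚ] AlgebraicClosure ℚ)

theorem mem_of_fixed {F : IntermediateField ℚ ℚbar} {x : ℚbar}
    (h : ∀ g : Γℚ, (∀ y ∈ F, g y = y) → g x = x) : x ∈ F := by
  have : IsGalois ℚ ℚbar := {}
  rw [← InfiniteGalois.fixedField_fixingSubgroup F]
  exact fun g => h g fun y hy => g.2 ⟨y, hy⟩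

theorem exists_field_series {S : LaurentSeries ℂ} (h : (orbitC S).Finite) :
    ∃ F : IntermediateField ℚ ℚbar, FiniteDimensional ℚ F ∧
      ∃ s ∈ coeffSub F.toSubalgebra.toSubring, ModularCurve.coeffMap eQ s = S := by
  obtain ⟨s, rfl⟩ := exists_qbar_series h
  obtain ⟨F, hF, hfix⟩ := exists_field_fixing h
  exact ⟨F, hF, s, fun i => mem_of_fixed fun g hg => by
    have := congrArg (fun t : LaurentSeries ℚbar => t.coeff i) (hfix g hg)
    simpa using this, rfl⟩

theorem eQ_C_mul (x : ℚbar) (s : LaurentSeries ℚbar) :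
    ModularCurve.coeffMap eQ (HahnSeries.C x * s)
      = HahnSeries.C (eQ x) * ModularCurve.coeffMap eQ s := by
  rw [map_mul, HahnSeries.C_apply, HahnSeries.C_apply, ModularCurve.coeffMap_single]

theorem C_mem_coeffSub {K : Type} [CommRing K] {R : Subring K} {x : K} (hx : x ∈ R) :
    HahnSeries.C x ∈ coeffSub R := fun i => by
  rcases eq_or_ne i 0 with rfl | hi
  · simpa [HahnSeries.C_apply] using hx
  · simp [HahnSeries.C_apply, HahnSeries.coeff_single_of_ne hi]

variable {M n : ℕ} [NeZero M] [Fact (5 ≤ M)] [Fact n.Prime]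

omit [NeZero M] [Fact (5 ≤ M)] in
/-- A value of a character as an algebraic number. -/
theorem exists_root_eQ (χ : Chr M n) (g : sgnGamma1 M) :
    ∃ x : ℚbar, x ^ n = 1 ∧ eQ x = ((χ.toHom g : ℂˣ) : ℂ) := by
  obtain ⟨x, hx⟩ := exists_eQ_eq (z := ((χ.toHom g : ℂˣ) : ℂ))
    (IsAlgebraic.of_pow n_pos (by rw [Chr.apply_pow]; exact isAlgebraic_one))
  exact ⟨x, eQ.injective (by rw [map_pow, hx, Chr.apply_pow, map_one]), hx⟩

omit [NeZero M] [Fact (5 ≤ M)] in
/-- The coset representative to which `δ` is related. -/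
theorem exists_rep (δ : SL(2, ℤ)) :
    ∃ (q : SL(2, ℤ) ⧸ sgnGamma1 M) (g : sgnGamma1 M), δ = g * q.out⁻¹ := by
  refine ⟨QuotientGroup.mk δ⁻¹, ⟨δ * (QuotientGroup.mk δ⁻¹ : SL(2, ℤ) ⧸ sgnGamma1 M).out, ?_⟩, ?_⟩
  · have := QuotientGroup.eq.1
      (QuotientGroup.out_eq' (QuotientGroup.mk δ⁻¹ : SL(2, ℤ) ⧸ sgnGamma1 M)).symm
    rwa [inv_inv] at this
  · exact (mul_inv_cancel_right _ _).symm

omit [NeZero M] [Fact (5 ≤ M)] in
/-- Series in a subring can be checked at coset representatives. -/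
theorem serInSub_of_reps {R : Subring ℚbar} {χ : Chr M n} {f : ℍ → ℂ}
    (hf : IsCharFun χ.toHom f) (hR : ∀ x : ℚbar, x ^ n = 1 → x ∈ R)
    (h : ∀ q : SL(2, ℤ) ⧸ sgnGamma1 M, ∃ s ∈ coeffSub R,
      HasExp M (fun τ => f (q.out⁻¹ • τ)) (ModularCurve.coeffMap eQ s)) : SerInSub R M f := by
  intro δ
  obtain ⟨q, g, rfl⟩ := exists_rep (M := M) δ
  obtain ⟨s, hs, hexp⟩ := h q
  obtain ⟨x, hx, hxe⟩ := exists_root_eQ χ g
  refine ⟨HahnSeries.C x * s, mul_mem (C_mem_coeffSub (hR x hx)) hs, ?_⟩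
  rw [eQ_C_mul, hxe]
  exact hf.ser_smul g hexp

omit [Fact (5 ≤ M)] in
/-- A field over which the functions with finite orbit series are defined. -/
theorem exists_field_family {χ : Chr M n} {r : ℕ} {f : Fin r → ℍ → ℂ}
    (hf : ∀ a, IsCharFun χ.toHom (f a))
    (horb : ∀ a (δ : SL(2, ℤ)) S, HasExp M (fun τ => f a (δ • τ)) S → (orbitC S).Finite) :
    ∃ F : IntermediateField ℚ ℚbar, FiniteDimensional ℚ F ∧ ∀ E : IntermediateField ℚ ℚbar,
      F ≤ E → (∀ x : ℚbar, x ^ n = 1 → x ∈ E) →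
        ∀ a, SerInSub E.toSubalgebra.toSubring M (f a) := by
  have : Fintype (SL(2, ℤ) ⧸ sgnGamma1 M) := Subgroup.fintypeQuotientOfFiniteIndex
  choose S hS using fun p : Fin r × (SL(2, ℤ) ⧸ sgnGamma1 M) => (hf p.1).exists_ser p.2.out⁻¹
  choose F hF s hs hsS using fun p => exists_field_series (horb p.1 p.2.out⁻¹ (S p) (hS p))
  refine ⟨⨆ p, F p, inferInstance, fun E hE hroot a => serInSub_of_reps (hf a) hroot fun q =>
    ⟨s (a, q), fun i => ((le_iSup F (a, q)).trans hE) (hs (a, q) i), ?_⟩⟩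
  rw [hsS]
  exact hS (a, q)

/-- Two families pairing to one, defined over a number field. -/
theorem exists_unitFam (χ : Chr M n) : ∃ (r r' : ℕ) (b : Fin r → ℍ → ℂ) (b' : Fin r' → ℍ → ℂ)
    (e : Fin r → Fin r' → ℂ) (F : IntermediateField ℚ ℚbar), FiniteDimensional ℚ F ∧
    (∀ a, IsCharFun χ.toHom (b a)) ∧ (∀ a, b a ≠ 0) ∧ (∀ a, IsCharFun (χ⁻¹).toHom (b' a)) ∧
    (∀ τ, ∑ a, ∑ a', e a a' * (b a τ * b' a' τ) = 1) ∧
    ∀ E : IntermediateField ℚ ℚbar, F ≤ E → (∀ x : ℚbar, x ^ n = 1 → x ∈ E) →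
      (∀ a, SerInSub E.toSubalgebra.toSubring M (b a)) ∧
        ∀ a, SerInSub E.toSubalgebra.toSubring M (b' a) := by
  obtain ⟨m, U, U', hU, hU', hsum⟩ := exists_unit_sum (χ := χ.toHom)
    (LevelM.neg_one_mem_sgnGamma1 M) (isFree_sgnGamma1 five_le_M) (χ.norm_apply n_pos) χ.ellPar
  rw [← Chr.toHom_inv] at hU'
  obtain ⟨k, hk⟩ := exists_inW_family hU
  obtain ⟨k', hk'⟩ := exists_inW_family hU'
  obtain ⟨r, b, hb, hb0, horb, hspan⟩ := exists_algSpan χ k
  obtain ⟨r', b', hb', -, horb', hspan'⟩ := exists_algSpan χ⁻¹ k'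
  obtain ⟨F, hF, hFb⟩ := exists_field_family hb horb
  obtain ⟨F', hF', hFb'⟩ := exists_field_family hb' horb'
  choose c hc using fun i => (Submodule.mem_span_range_iff_exists_fun ℂ).1 (hspan _ (hk i))
  choose d hd using fun i => (Submodule.mem_span_range_iff_exists_fun ℂ).1 (hspan' _ (hk' i))
  refine ⟨r, r', b, b', fun a a' => ∑ i, c i a * d i a', F ⊔ F', inferInstance, hb, hb0, hb',
    fun τ => ?_, fun E hE hroot =>
      ⟨hFb E (le_sup_left.trans hE) hroot, hFb' E (le_sup_right.trans hE) hroot⟩⟩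
  have h1 := congrFun hsum τ
  simp only [← hc, ← hd, Finset.sum_apply, Pi.mul_apply, Pi.one_apply, Pi.smul_apply,
    smul_eq_mul, Finset.sum_mul_sum] at h1
  rw [← h1]
  simp only [Finset.sum_mul]
  conv_rhs => rw [Finset.sum_comm]
  refine Finset.sum_congr rfl fun a _ => ?_
  conv_rhs => rw [Finset.sum_comm]
  exact Finset.sum_congr rfl fun a' _ => Finset.sum_congr rfl fun i _ => by ring

section Bdd

variable (E : IntermediateField ℚ ℚbar)

/-- A series with coefficients in `E` comes from a series over `E`. -/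
theorem exists_lift_series {s : LaurentSeries ℚbar} (hs : s ∈ coeffSub E.toSubalgebra.toSubring) :
    ∃ t : LaurentSeries E, ModularCurve.coeffMap (algebraMap E ℚbar) t = s :=
  ⟨⟨fun i => ⟨s.coeff i, hs i⟩, s.isPWO_support.mono fun i hi => by
      rw [HahnSeries.mem_support]
      exact fun h0 => hi (Subtype.ext h0)⟩,
    HahnSeries.ext (funext fun i => rfl)⟩

/-- The embedding of `E` in `ℂ`. -/
def eE : E →+* ℂ := eQ.comp (algebraMap E ℚbar)

theorem coeffMap_eE (t : LaurentSeries E) :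
    ModularCurve.coeffMap (eE E) t
      = ModularCurve.coeffMap eQ (ModularCurve.coeffMap (algebraMap E ℚbar) t) := by
  ext i
  simp [eE]

theorem coeffMap_eE_injective :
    Function.Injective (ModularCurve.coeffMap (eE E) : LaurentSeries E → LaurentSeries ℂ) := by
  intro s t h
  ext i
  refine congrArg Subtype.val ((eE E).injective (?_ : eE E (s.coeff i) = eE E (t.coeff i)))
  simpa using congrArg (fun x : LaurentSeries ℂ => x.coeff i) h

omit [NeZero M] [Fact (5 ≤ M)] in
theorem exists_eSeries {f : ℍ → ℂ} (hf : SerInSub E.toSubalgebra.toSubring M f) (δ : SL(2, ℤ)) :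
    ∃ t : LaurentSeries E, HasExp M (fun τ => f (δ • τ)) (ModularCurve.coeffMap (eE E) t) := by
  obtain ⟨s, hs, hexp⟩ := hf δ
  obtain ⟨t, rfl⟩ := exists_lift_series E hs
  exact ⟨t, by rwa [coeffMap_eE]⟩

theorem exists_proj : ∃ π : ℂ →+ E, π 1 = 1 ∧ ∀ (x : E) (z : ℂ), π (eE E x * z) = x * π z := by
  let : Algebra E ℂ := (eE E).toAlgebra
  obtain ⟨g, hg⟩ := (Algebra.linearMap E ℂ).exists_leftInverse_of_injective
    (LinearMap.ker_eq_bot.2 (eE E).injective)
  refine ⟨g.toAddMonoidHom, ?_, fun x z => ?_⟩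
  · have := LinearMap.congr_fun hg 1
    simpa using this
  · show g (eE E x * z) = x * g z
    rw [← smul_eq_mul x (g z), ← map_smul, Algebra.smul_def]
    rfl

theorem C_eE_mul (x : E) (t : LaurentSeries E) :
    ModularCurve.coeffMap (eE E) (HahnSeries.C x * t)
      = HahnSeries.C (eE E x) * ModularCurve.coeffMap (eE E) t := by
  rw [map_mul, HahnSeries.C_apply, HahnSeries.C_apply, ModularCurve.coeffMap_single]

variable {E} [FiniteDimensional ℚ E] {O : ValuationSubring E} [IsDiscreteValuationRing O]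

omit [FiniteDimensional ℚ ↥E] in
/-- **Bounded denominators for functions with character.** -/
theorem bdd_of_unitFam (hnO : IsUnit (n : O)) (hMO : IsUnit (M : O))
    (hζ : ∃ z : O, eE E (algebraMap O E z) = ex ((1 : ℂ) / M))
    {χ : Chr M n} {f : ℍ → ℂ} (hf : IsCharFun χ.toHom f)
    (hfE : SerInSub E.toSubalgebra.toSubring M f)
    {r r' : ℕ} (b : Fin r → ℍ → ℂ) (b' : Fin r' → ℍ → ℂ) (e : Fin r → Fin r' → ℂ)
    (hb : ∀ a, IsCharFun χ.toHom (b a)) (hb' : ∀ a, IsCharFun (χ⁻¹).toHom (b' a))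
    (hsum : ∀ τ, ∑ a, ∑ a', e a a' * (b a τ * b' a' τ) = 1)
    (hbE : ∀ a, SerInSub E.toSubalgebra.toSubring M (b a))
    (hb'E : ∀ a, SerInSub E.toSubalgebra.toSubring M (b' a))
    (δ : SL(2, ℤ)) {t : LaurentSeries E}
    (ht : HasExp M (fun τ => f (δ • τ)) (ModularCurve.coeffMap (eE E) t)) :
    t ∈ bddSub (E := E) O := by
  classical
  have hn2 : 2 ≤ n := (Fact.out : n.Prime).two_le
  -- invariant functions
  have hinv : ∀ (g : ℍ → ℂ) (s : SL(2, ℤ) → LaurentSeries E),
      IsCharFun (1 : sgnGamma1 M →* ℂˣ) g →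
      (∀ γ, HasExp M (fun τ => g (γ • τ)) (ModularCurve.coeffMap (eE E) (s γ))) →
      ∀ γ, s γ ∈ bddSub (E := E) O := fun g s hg hs γ =>
    series_mem_bddSub (by linarith [five_le_M (M := M)]) hMO (eE E) hζ hg.isFunOn s hs γ
  choose S hS using exists_eSeries E hfE
  choose B hB using fun a => exists_eSeries E (hbE a)
  choose B' hB' using fun a => exists_eSeries E (hb'E a)
  have hSn : ∀ γ, S γ ^ n ∈ bddSub (E := E) O := by
    refine hinv (f ^ n) (fun γ => S γ ^ n) ((hf.pow n).congr χ.pow_eq) fun γ => ?_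
    have := mem_QS.1 (pow_mem (show (_, _) ∈ QS M from hS γ) n)
    simp only [Prod.pow_mk, ← map_pow] at this
    exact this
  have hBn : ∀ a γ, B a γ ^ n ∈ bddSub (E := E) O := fun a => by
    refine hinv (b a ^ n) (fun γ => B a γ ^ n) (((hb a).pow n).congr χ.pow_eq) fun γ => ?_
    have := mem_QS.1 (pow_mem (show (_, _) ∈ QS M from hB a γ) n)
    simp only [Prod.pow_mk, ← map_pow] at this
    exact this
  have hB'n : ∀ a γ, B' a γ ^ n ∈ bddSub (E := E) O := fun a => by
    refine hinv (b' a ^ n) (fun γ => B' a γ ^ n) (((hb' a).pow n).congr (χ⁻¹).pow_eq) fun γ => ?_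
    have := mem_QS.1 (pow_mem (show (_, _) ∈ QS M from hB' a γ) n)
    simp only [Prod.pow_mk, ← map_pow] at this
    exact this
  have hBB : ∀ a a' γ, B a γ * B' a' γ ∈ bddSub (E := E) O := fun a a' => by
    refine hinv (b a * b' a') (fun γ => B a γ * B' a' γ)
      (((hb a).mul (hb' a')).congr ?_) fun γ => ?_
    · exact MonoidHom.ext fun γ => mul_inv_cancel (χ.toHom γ)
    · have := (hB a γ).mul (hB' a' γ)
      rw [← map_mul] at this
      exact this
  have hSB : ∀ a γ, S γ * B a γ ^ (n - 1) ∈ bddSub (E := E) O := fun a => by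
    refine hinv (f * b a ^ (n - 1)) (fun γ => S γ * B a γ ^ (n - 1))
      ((hf.mul ((hb a).pow (n - 1))).congr (χ.pow_pred n_pos)) fun γ => ?_
    have := mem_QS.1 (mul_mem (show (_, _) ∈ QS M from hS γ)
      (pow_mem (show (_, _) ∈ QS M from hB a γ) (n - 1)))
    simp only [Prod.pow_mk, Prod.mk_mul_mk, ← map_pow, ← map_mul] at this
    exact this
  -- the relation over `E`
  obtain ⟨π, hπ1, hπ⟩ := exists_proj E
  have hone : ∑ a, ∑ a', HahnSeries.C (π (e a a')) * (B a δ * B' a' δ) = 1 := by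
    have hexp : HasExp M (fun _ => (1 : ℂ))
        (∑ a, ∑ a', HahnSeries.C (e a a') * ModularCurve.coeffMap (eE E) (B a δ * B' a' δ)) := by
      have h2 := mem_QS.1 (sum_mem (S := QS M) (t := Finset.univ) fun a _ =>
        sum_mem (S := QS M) (t := Finset.univ) fun a' _ =>
          (show ((fun τ => e a a' * (b a (δ • τ) * b' a' (δ • τ))), _) ∈ QS M from
            (Igusa.hasExp_const M (e a a')).mul ((hB a δ).mul (hB' a' δ))))
      simp only [Prod.fst_sum, Prod.snd_sum] at h2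
      convert h2 using 1
      · funext τ
        simpa [Finset.sum_apply] using (hsum (δ • τ)).symm
      · simp only [map_mul, HahnSeries.C_apply]
    have heq := hexp.unique (Igusa.hasExp_const M 1)
    ext i
    have h3 := congrArg (fun x : LaurentSeries ℂ => π (x.coeff i)) heq
    simp only [HahnSeries.coeff_sum, map_sum, HahnSeries.C_apply, HahnSeries.coeff_single_mul,
      sub_zero, ModularCurve.coeffMap_coeff] at h3
    simp only [HahnSeries.coeff_sum, HahnSeries.C_apply, HahnSeries.coeff_single_mul, sub_zero,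
      HahnSeries.coeff_one]
    have h4 : ∀ a a', π (e a a' * eE E ((B a δ * B' a' δ).coeff i))
        = π (e a a') * (B a δ * B' a' δ).coeff i := fun a a' => by
      rw [mul_comm, hπ, mul_comm]
    simp only [h4] at h3
    rw [h3]
    rcases eq_or_ne i 0 with rfl | hi
    · simp [hπ1]
    · simp [hi]
  have htS : t = S δ := coeffMap_eE_injective E (ht.unique (hS δ))
  rw [htS]
  have hC := C_mem_bddSub (O := O) (E := E)
  let P := Fin r × Fin r'
  let ε : P → LaurentSeries E := fun p => HahnSeries.C (π (e p.1 p.2))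
  let ord := (Fintype.equivFin P).symm
  refine mem_bddSub_of_pow_eq hn2 hnO (hSn δ)
    (fun i => ε (ord i) * (B (ord i).1 δ * B' (ord i).2 δ))
    (fun i => mul_mem (hC _) (hBB _ _ δ)) ?_
    (fun i => ε (ord i) ^ n * B (ord i).1 δ ^ n) (fun i => B' (ord i).2 δ ^ n)
    (fun i => ε (ord i) ^ (n - 1) * (S δ * B (ord i).1 δ ^ (n - 1)))
    (fun i => mul_mem (pow_mem (hC _) _) (hBn _ δ)) (fun i => hB'n _ δ)
    (fun i => mul_mem (pow_mem (hC _) _) (hSB _ δ)) (fun i => by ring) fun i => by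
      rw [mul_pow, mul_pow, mul_pow, ← pow_mul, ← pow_mul, ← pow_mul, ← pow_mul,
        mul_comm (n - 1) n]
      ring
  rw [Equiv.sum_comp ord (fun p => ε p * (B p.1 δ * B' p.2 δ)), Fintype.sum_prod_type]
  exact hone

end Bdd

section Scale

theorem coe_mem_nonunits_comap {K L : Type} [Field K] [Field L] (φ : K →+* L)
    (A : ValuationSubring L) (x : K) : x ∈ (A.comap φ).nonunits ↔ φ x ∈ A.nonunits := by
  rw [ValuationSubring.mem_nonunits_iff_or, ValuationSubring.mem_nonunits_iff_or,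
    ValuationSubring.mem_comap, map_inv₀, map_eq_zero]

/-- Finitely many bounded series can be scaled to be integral and not all zero modulo `π`. -/
theorem exists_scale {K : Type} [Field K] (O : ValuationSubring K) [IsDiscreteValuationRing O]
    {ι : Type} [Fintype ι] (t : ι → LaurentSeries K) (ht : ∀ q, t q ∈ bddSub (E := K) O)
    (hne : ∃ q, t q ≠ 0) :
    ∃ c : K, c ≠ 0 ∧ (∀ q i, c * (t q).coeff i ∈ O) ∧
      ∃ q i, c * (t q).coeff i ∉ O.nonunits := by
  classical
  choose b hb0 a ha using ht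
  set B : O := ∏ q, b q
  have hB : B ≠ 0 := Finset.prod_ne_zero_iff.2 fun q _ => hb0 q
  have hint : ∀ q i, ∃ x : O, (x : K) = (B : K) * (t q).coeff i := fun q i =>
    ⟨(∏ q' ∈ Finset.univ.erase q, b q') * a q i, by
      have e : B = (∏ q' ∈ Finset.univ.erase q, b q') * b q :=
        (Finset.prod_erase_mul _ _ (Finset.mem_univ q)).symm
      have h := ha q i
      change ((a q i : O) : K) = (b q : K) * _ at h
      rw [e, MulMemClass.coe_mul, MulMemClass.coe_mul, h, mul_assoc]⟩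
  choose x hx using hint
  obtain ⟨π, hπ⟩ := IsDiscreteValuationRing.exists_irreducible O
  have hex : ∃ k : ℕ, ∃ q i, ¬ π ^ (k + 1) ∣ x q i := by
    obtain ⟨q, hq⟩ := hne
    obtain ⟨i, hi⟩ : ∃ i, (t q).coeff i ≠ 0 := by
      by_contra hc
      push Not at hc
      exact hq (HahnSeries.ext (funext hc))
    have hx0 : x q i ≠ 0 := fun h0 => by
      have := hx q i
      rw [h0, ZeroMemClass.coe_zero, eq_comm, mul_eq_zero] at this
      exact this.elim (fun h => hB (Subtype.ext h)) hi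
    obtain ⟨j, u, hj⟩ := IsDiscreteValuationRing.eq_unit_mul_pow_irreducible hx0 hπ
    refine ⟨j, q, i, fun hd => ?_⟩
    rw [hj, Units.dvd_mul_left] at hd
    have := (pow_dvd_pow_iff hπ.ne_zero hπ.not_isUnit).1 hd
    omega
  set k := Nat.find hex
  have hdvd : ∀ q i, π ^ k ∣ x q i := by
    intro q i
    rcases Nat.eq_zero_or_pos k with h | h
    · rw [h, pow_zero]; exact one_dvd _
    · by_contra hd
      exact Nat.find_min hex (m := k - 1) (by omega)
        ⟨q, i, by rwa [Nat.sub_add_cancel h]⟩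
  obtain ⟨q₀, i₀, hk⟩ := Nat.find_spec hex
  choose y hy using hdvd
  have hπk : ((π ^ k : O) : K) ≠ 0 := fun h => pow_ne_zero k hπ.ne_zero (Subtype.ext h)
  have hval : ∀ q i, (B : K) / ((π ^ k : O) : K) * (t q).coeff i = y q i := fun q i => by
    rw [div_mul_eq_mul_div, ← hx, hy, MulMemClass.coe_mul, mul_div_cancel_left₀ _ hπk]
  refine ⟨(B : K) / ((π ^ k : O) : K), div_ne_zero (fun h => hB (Subtype.ext h)) hπk,
    fun q i => by rw [hval]; exact (y q i).2, q₀, i₀, fun hmem => hk ?_⟩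
  rw [hval, ValuationSubring.coe_mem_nonunits_iff,
    (IsDiscreteValuationRing.irreducible_iff_uniformizer π).1 hπ, Ideal.mem_span_singleton] at hmem
  rw [pow_succ, hy]
  exact mul_dvd_mul_left _ hmem

end Scale

/-- The field containing the expansions and enough roots of unity, closed under conjugation. -/
theorem exists_normal_field (F : IntermediateField ℚ ℚbar) [FiniteDimensional ℚ F] {m : ℕ}
    (hm : 0 < m) : ∃ E : IntermediateField ℚ ℚbar, FiniteDimensional ℚ E ∧ F ≤ E ∧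
      (∀ x : ℚbar, x ^ m = 1 → x ∈ E) ∧ ∀ (g : Γℚ), ∀ x ∈ E, g x ∈ E := by
  set Z : Set ℚbar := {x | x ^ m = 1}
  have : Finite Z := by
    refine ((Polynomial.nthRootsFinset m (1 : ℚbar)).finite_toSet.subset fun x hx => ?_).to_subtype
    simpa [Z, Polynomial.mem_nthRootsFinset hm] using hx
  have : FiniteDimensional ℚ (IntermediateField.adjoin ℚ Z) :=
    IntermediateField.finiteDimensional_adjoin fun x _ =>
      (Algebra.IsAlgebraic.isAlgebraic x).isIntegral
  set E := IntermediateField.normalClosure ℚ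
    (F ⊔ IntermediateField.adjoin ℚ Z : IntermediateField ℚ ℚbar) ℚbar
  have hle : F ⊔ IntermediateField.adjoin ℚ Z ≤ E := IntermediateField.le_normalClosure _
  refine ⟨E, inferInstance, le_sup_left.trans hle,
    fun x hx => hle (le_sup_right (a := F) (IntermediateField.subset_adjoin _ _ hx)),
    fun g x hx => ?_⟩
  have hn : Normal ℚ E := normalClosure.normal ℚ _ ℚbar
  exact IntermediateField.normal_iff_forall_map_le'.1 hn g
    ⟨x, hx, rfl⟩

/-- **Integral families at a good place.** -/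
theorem exists_setting {p : ℕ} (hp : p.Prime) (hpM : ¬ p ∣ M) (hnp : n ≠ p)
    {A : ValuationSubring ℚbar} (hA : A.LiesOverPrime p) :
    ∃ S : Setting M, S.p = p ∧ S.A = A ∧ (∀ (g : Γℚ), ∀ x ∈ S.E, g x ∈ S.E) ∧
      (∀ x : ℚbar, x ^ n = 1 → x ∈ S.E) ∧
      ∀ χ : Chr M n, ∃ (r : ℕ) (f : Fin r → ℍ → ℂ),
        (∀ i, IsCharFun χ.toHom (f i) ∧ S.SerIn (f i) ∧ ∃ (δ : SL(2, ℤ)) (s : LaurentSeries ℚbar),
          HasExp M (fun τ => f i (δ • τ)) (ModularCurve.coeffMap eQ s) ∧
            ∃ j, s.coeff j ∉ A.nonunits) ∧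
        ∀ τ, ∃ i, f i τ ≠ 0 := by
  classical
  have : NeZero n := ⟨n_pos.ne'⟩
  have : Finite (Chr M n) := finite_chr
  have : Fintype (SL(2, ℤ) ⧸ sgnGamma1 M) := Subgroup.fintypeQuotientOfFiniteIndex
  choose r r' b b' e F hF hb hb0 hb' hsum hE' using fun χ : Chr M n => exists_unitFam χ
  set N₀ : ℕ := if p = 3 then 4 else 3 with hN₀
  have hN : N₀ = 3 ∨ N₀ = 4 := by rw [hN₀]; split_ifs <;> simp
  have hpN : ¬ p ∣ N₀ := by
    rw [hN₀]
    split_ifs with h
    · subst h; norm_num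
    · rwa [Nat.prime_dvd_prime_iff_eq hp Nat.prime_three]
  have hn0 := n_pos (n := n)
  have hM0 := NeZero.pos M
  obtain ⟨E, hEfin, hFE, hroot, hgal⟩ := exists_normal_field (⨆ χ, F χ) (m := p * M * N₀ * n)
    (by
      have := hp.pos
      have : 0 < N₀ := by omega
      positivity)
  have hroot' : ∀ d : ℕ, d ∣ p * M * N₀ * n → ∀ x : ℚbar, x ^ d = 1 → x ∈ E := by
    rintro d ⟨k, hk⟩ x hx
    exact hroot x (by rw [hk, pow_mul, hx, one_pow])
  have hrn : ∀ x : ℚbar, x ^ n = 1 → x ∈ E := hroot' n (dvd_mul_left _ _)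
  let S : Setting M :=
    { p := p, hp := hp, hpM := hpM, A := A, hA := hA, N₀ := N₀, hN₀ := hN, hpN₀ := hpN
      E := E, finE := hEfin, root_mem := hroot' _ (dvd_mul_right _ _) }
  refine ⟨S, rfl, rfl, hgal, hrn, fun χ => ?_⟩
  have : NumberField E := ⟨⟩
  set O := A.comap (algebraMap E ℚbar)
  have hOp : O.LiesOverPrime p := by
    show (p : E) ∈ O.nonunits
    rw [coe_mem_nonunits_comap, map_natCast]
    exact hA
  have : IsDiscreteValuationRing O := exists_dvr_le O hp hOp
  have hunit : ∀ d : ℕ, ¬ p ∣ d → IsUnit (d : O) := by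
    intro d hd
    by_contra hu
    have hmem : (d : ℚbar) ∈ A.nonunits := by
      have h1 : ((d : O) : E) ∈ O.nonunits := ValuationSubring.coe_mem_nonunits_iff.2 hu
      rw [coe_mem_nonunits_comap] at h1
      simpa using h1
    exact hd ((Gal.natCast_mem_nonunits_iff A hp hA d).1 hmem)
  have hnO : IsUnit (n : O) := hunit n fun h =>
    hnp ((Nat.prime_dvd_prime_iff_eq hp Fact.out).1 h).symm
  have hζ : ∃ z : O, eE E (algebraMap O E z) = ex ((1 : ℂ) / M) := by
    obtain ⟨x, hx⟩ := exists_eQ_eq (isAlgebraic_ex (M := M) 1)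
    have hxM : x ^ M = 1 := eQ.injective (by
      rw [map_pow, hx, map_one, ex, ← Complex.exp_nat_mul, Complex.exp_eq_one_iff]
      refine ⟨1, ?_⟩
      have : (M : ℂ) ≠ 0 := Nat.cast_ne_zero.2 (NeZero.ne M)
      push_cast
      field_simp)
    have hxE : x ∈ E := hroot' M ⟨p * N₀ * n, by ring⟩ x hxM
    have hxi : IsIntegral ℤ x := IsIntegral.of_pow hM0 (by rw [hxM]; exact isIntegral_one)
    refine ⟨⟨⟨x, hxE⟩, Gal.mem_of_isIntegral A hxi⟩, ?_⟩
    show eQ x = _
    simpa using hx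
  obtain ⟨hbE, hb'E⟩ := hE' χ E ((le_iSup F χ).trans hFE) hrn
  choose t ht using fun a (q : SL(2, ℤ) ⧸ sgnGamma1 M) => exists_eSeries E (hbE a) q.out⁻¹
  have hbdd : ∀ a q, t a q ∈ bddSub (E := E) O := fun a q =>
    bdd_of_unitFam hnO (hunit M hpM) hζ (hb χ a) (hbE a) (b χ) (b' χ) (e χ) (hb χ) (hb' χ)
      (hsum χ) hbE hb'E q.out⁻¹ (ht a q)
  have hne : ∀ a, ∃ q, t a q ≠ 0 := fun a => ⟨Connected.one (sgnGamma1 M), fun h0 => hb0 χ a
    (funext fun τ => by
      have := (ht a (Connected.one (sgnGamma1 M))).2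
        ((Connected.one (sgnGamma1 M)).out • τ)
      simp only [h0, map_zero, HahnSeries.coeff_zero, zero_mul, inv_smul_smul] at this
      exact this.unique hasSum_zero)⟩
  choose c hc0 hcO q₀ i₀ hcne using fun a => exists_scale O (t a) (hbdd a) (hne a)
  have hexp : ∀ a q, HasExp M (fun τ => (eE E (c a) • b χ a) (q.out⁻¹ • τ))
      (ModularCurve.coeffMap eQ (ModularCurve.coeffMap (algebraMap E ℚbar)
        (HahnSeries.C (c a) * t a q))) := fun a q => by
    rw [← coeffMap_eE, C_eE_mul, HahnSeries.C_apply]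
    exact (Igusa.hasExp_const M (eE E (c a))).mul (ht a q)
  have hcoe : ∀ a q i, (ModularCurve.coeffMap (algebraMap E ℚbar)
      (HahnSeries.C (c a) * t a q)).coeff i = ((c a * (t a q).coeff i : E) : ℚbar) :=
        fun a q i => by
    rw [ModularCurve.coeffMap_coeff, HahnSeries.C_apply, HahnSeries.coeff_single_mul, sub_zero]
    rfl
  refine ⟨r χ, fun a => eE E (c a) • b χ a, fun a => ⟨(hb χ a).smul _,
    serInSub_of_reps ((hb χ a).smul _) (fun x hx => ⟨hrn x hx, Gal.mem_of_isIntegral A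
      (IsIntegral.of_pow hn0 (by rw [hx]; exact isIntegral_one))⟩) fun q =>
      ⟨_, fun i => ?_, hexp a q⟩,
    (q₀ a).out⁻¹, _, hexp a (q₀ a), i₀ a, fun h => hcne a ?_⟩, fun τ => ?_⟩
  · rw [hcoe]
    exact ⟨(c a * (t a q).coeff i).2, hcO a q i⟩
  · rw [hcoe] at h
    rw [coe_mem_nonunits_comap]
    exact h
  · by_contra hcon
    push Not at hcon
    have hz : ∀ a, b χ a τ = 0 := fun a => by
      have := hcon a
      rwa [Pi.smul_apply, smul_eq_mul, mul_eq_zero,
        or_iff_right ((map_ne_zero (eE E)).2 (hc0 a))] at this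
    have h1 := hsum χ τ
    simp [hz] at h1

end Fermat.Agent.DeligneSerre
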