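import Fermat.Agent.DeligneSerre.Local.Good
import Fermat.Agent.DeligneSerre.Local.Congr
import Fermat.Agent.DeligneSerre.HeckeChr
import Fermat.Agent.Gal.Frobenius
import Fermat.Agent.Reduction.Series

/-!
# The congruence relation on characters

At a prime `p ∤ M`, `p ≠ n`, inertia fixes the characters and a Frobenius element `F` satisfies
`T_p χ = F χ · (F⁻¹ ⟨p⟩ χ) ^ p`.
-/

set_option autoImplicit false

noncomputable section

open UpperHalfPlane hiding I
open scoped MatrixGroups Pointwise OnePoint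

namespace Fermat.Agent.DeligneSerre

open Setting (SerInSub)
open Fermat.Agent.Igusa (HasExp QS mem_QS affine twist)
open Fermat.Agent.LevelM (sgnGamma sgnGamma1 ex ConjRel)
open Fermat.Agent.GammaH (deltaOf repT unitD)
open Fermat.Agent.Periods (toGLR)
open Fermat.Agent.Reduction (Red)

local notation "ℚbar" => AlgebraicClosure ℚ
local notation "Γℚ" => (AlgebraicClosure ℚ ≃ₐ[ℚ] AlgebraicClosure ℚ)
local notation "qP" => Function.Periodic.qParam

section Series

variable {k : Type} [Field k] (q : ℕ) [Fact q.Prime] [CharP k q]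

theorem qExpand_frobenius [NeZero q] (s : LaurentSeries k) :
    ModularCurve.qExpand k q (ModularCurve.coeffMap (frobenius k q) s) = s ^ q := by
  have hps : ∀ f : PowerSeries k,
      ModularCurve.qExpand k q (ModularCurve.coeffMap (frobenius k q)
        (HahnSeries.ofPowerSeries ℤ k f)) = HahnSeries.ofPowerSeries ℤ k f ^ q := by
    intro f
    have h2 : PowerSeries.map (frobenius k q) (PowerSeries.expand q (NeZero.ne q) f) = f ^ q :=
      MvPowerSeries.map_frobenius_expand (σ := Unit) (R := k) q (NeZero.ne q) (f := f)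
    rw [← map_pow, ← h2]
    ext n
    rcases lt_or_ge n 0 with hn | hn
    · rw [ModularCurve.ofPowerSeries_coeff_of_neg _ hn]
      by_cases hd : (q : ℤ) ∣ n
      · obtain ⟨m, rfl⟩ := hd
        rw [ModularCurve.qExpand_coeff_mul, ModularCurve.coeffMap_coeff,
          ModularCurve.ofPowerSeries_coeff_of_neg, map_zero]
        nlinarith [show (0 : ℤ) ≤ q from Int.natCast_nonneg q]
      · exact ModularCurve.qExpand_coeff_of_not_dvd q _ hd
    lift n to ℕ using hn
    rw [HahnSeries.ofPowerSeries_apply_coeff, PowerSeries.coeff_map, PowerSeries.coeff_expand]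
    by_cases hd : q ∣ n
    · obtain ⟨m, rfl⟩ := hd
      rw [if_pos (dvd_mul_right _ _), Nat.mul_div_cancel_left _ (NeZero.pos q), Nat.cast_mul,
        ModularCurve.qExpand_coeff_mul, ModularCurve.coeffMap_coeff,
        HahnSeries.ofPowerSeries_apply_coeff]
    · rw [if_neg hd, map_zero,
        ModularCurve.qExpand_coeff_of_not_dvd q _ (by rwa [Int.natCast_dvd_natCast])]
  obtain ⟨m, f, rfl⟩ : ∃ (m : ℤ) (f : PowerSeries k),
      HahnSeries.single m (1 : k) * HahnSeries.ofPowerSeries ℤ k f = s :=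
    ⟨s.order, s.powerSeriesPart, s.single_order_mul_powerSeriesPart⟩
  rw [map_mul, map_mul, ModularCurve.coeffMap_single, ModularCurve.qExpand_single, hps, mul_pow,
    HahnSeries.single_pow, map_one, one_pow, nsmul_eq_mul]

end Series

/-- An integral series has a reduction. -/
theorem exists_red {K k : Type} [Field K] [Field k] {A : ValuationSubring K} {π : A →+* k}
    {y : LaurentSeries K} (hy : ∀ i, y.coeff i ∈ A) : ∃ x, Red A π y x :=
  ⟨ModularCurve.coeffMap π ⟨fun i => ⟨y.coeff i, hy i⟩, y.isPWO_support.mono fun i hi => by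
      rw [HahnSeries.mem_support]
      exact fun h0 => hi (Subtype.ext h0)⟩,
    fun i => ⟨hy i, rfl⟩⟩

theorem Red.qExpand {K k : Type} [Field K] [Field k] {A : ValuationSubring K} {π : A →+* k}
    {y : LaurentSeries K} {x : LaurentSeries k} (h : Red A π y x) (m : ℕ) [NeZero m] :
    Red A π (ModularCurve.qExpand K m y) (ModularCurve.qExpand k m x) := by
  intro i
  by_cases hd : (m : ℤ) ∣ i
  · obtain ⟨j, rfl⟩ := hd
    rw [ModularCurve.qExpand_coeff_mul]
    simp only [ModularCurve.qExpand_coeff_mul]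
    exact h j
  · simp only [ModularCurve.qExpand_coeff_of_not_dvd m _ hd]
    exact ⟨zero_mem A, map_zero π⟩

theorem residue_eq_iff {K : Type} [Field K] (A : ValuationSubring K) {x y : K} (hx : x ∈ A)
    (hy : y ∈ A) : IsLocalRing.residue A ⟨x, hx⟩ = IsLocalRing.residue A ⟨y, hy⟩ ↔
      x - y ∈ A.nonunits := by
  rw [← sub_eq_zero, ← map_sub, IsLocalRing.residue_eq_zero_iff, ← A.coe_mem_nonunits_iff]
  rfl

variable {M n : ℕ} [NeZero M] [Fact (5 ≤ M)] [Fact n.Prime]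

omit [NeZero M] [Fact (5 ≤ M)] [Fact (Nat.Prime n)] in
theorem toHom_pow (χ : Chr M n) (j : ℕ) : (χ ^ j).toHom = χ.toHom ^ j := by
  refine MonoidHom.ext fun γ => ?_
  rw [MonoidHom.pow_apply]
  induction j with
  | zero => simp
  | succ j ih => rw [pow_succ, Chr.toHom_mul, MonoidHom.mul_apply, ih, pow_succ]

namespace Setting

variable (S : Setting M)

omit [NeZero M] [Fact (5 ≤ M)] in
theorem mem_A_of_smul_eq {g : Γℚ} (hgA : g • S.A = S.A) {x : ℚbar} (hx : x ∈ S.A) : g x ∈ S.A := by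
  have := ValuationSubring.smul_mem_pointwise_smul g x S.A hx
  rwa [hgA] at this

omit [NeZero M] [Fact (5 ≤ M)] in
theorem root_mem_R {m : ℕ} (hm : 0 < m) {x : ℚbar} (hx : x ^ m = 1) (hxE : x ∈ S.E) : x ∈ S.R :=
  ⟨hxE, Gal.mem_of_isIntegral S.A (IsIntegral.of_pow hm (by rw [hx]; exact isIntegral_one))⟩

variable {S}

omit [NeZero M] [Fact (5 ≤ M)] in
theorem SerIn.comp {f : ℍ → ℂ} (hf : S.SerIn f) (δ₀ : SL(2, ℤ)) :
    S.SerIn (fun τ => f (δ₀ • τ)) := fun δ => by
  obtain ⟨s, hs, hexp⟩ := hf (δ₀ * δ)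
  exact ⟨s, hs, by simpa [mul_smul] using hexp⟩

omit [NeZero M] [Fact (5 ≤ M)] in
theorem SerIn.mul {f g : ℍ → ℂ} (hf : S.SerIn f) (hg : S.SerIn g) : S.SerIn (f * g) := fun δ => by
  obtain ⟨s, hs, hexp⟩ := hf δ
  obtain ⟨t, ht, hexp'⟩ := hg δ
  exact ⟨s * t, mul_mem hs ht, by rw [map_mul]; exact hexp.mul hexp'⟩

omit [NeZero M] [Fact (5 ≤ M)] in
theorem SerIn.pow {f : ℍ → ℂ} (hf : S.SerIn f) (k : ℕ) : S.SerIn (f ^ k) := fun δ => by
  obtain ⟨s, hs, hexp⟩ := hf δ
  refine ⟨s ^ k, pow_mem hs k, ?_⟩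
  have := mem_QS.1 (pow_mem (show (_, _) ∈ QS M from hexp) k)
  simp only [Prod.pow_mk, ← map_pow] at this
  exact this

/-- The twist of an integral function, with the twisted expansion at infinity. -/
theorem SerIn.exists_twist (hroot : ∀ x : ℚbar, x ^ n = 1 → x ∈ S.E) {g : Γℚ}
    (hgE : ∀ x ∈ S.E, g x ∈ S.E) (hgA : g • S.A = S.A) {χ : Chr M n} {f : ℍ → ℂ}
    (hf : IsCharFun χ.toHom f) (hs : S.SerIn f) {s : LaurentSeries ℚbar}
    (h1 : HasExp M f (ModularCurve.coeffMap eQ s)) :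
    ∃ H, IsCharFun (twQ g χ).toHom H ∧ S.SerIn H ∧
      HasExp M H (ModularCurve.coeffMap eQ (ModularCurve.coeffMap (g : ℚbar →+* ℚbar) s)) := by
  have hσ : ∀ t : LaurentSeries ℚbar,
      ModularCurve.coeffMap (liftC g : ℂ →+* ℂ) (ModularCurve.coeffMap eQ t)
        = ModularCurve.coeffMap eQ (ModularCurve.coeffMap (g : ℚbar →+* ℚbar) t) := fun t => by
    ext i
    simp [liftC_apply]
  obtain ⟨H, hH, ht⟩ := tw_spec (liftC g : ℂ →+* ℂ) hf
  obtain ⟨a, ha, hH1⟩ := twist_series hf hH ht (ConjRel.one M _) (S := ModularCurve.coeffMap eQ s)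
    (by simpa using h1)
  simp only [one_smul] at hH1
  refine ⟨a⁻¹ • H, hH.smul _, fun δ' => ?_, ?_⟩
  · obtain ⟨δ, hδ⟩ := exists_conjRel_left (isCoprime_rootExp (M := M) (liftC g : ℂ →+* ℂ)) δ'
    obtain ⟨t, htR, hexp⟩ := hs δ
    obtain ⟨b, hb, hH2⟩ := twist_series hf hH ht hδ hexp
    have hab : (a⁻¹ * b) ^ n = 1 := by rw [mul_pow, inv_pow, ha, hb, inv_one, one_mul]
    obtain ⟨x, hx⟩ := exists_eQ_eq (z := a⁻¹ * b)
      (IsAlgebraic.of_pow n_pos (by rw [hab]; exact isAlgebraic_one))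
    have hxn : x ^ n = 1 := eQ.injective (by rw [map_pow, hx, hab, map_one])
    refine ⟨HahnSeries.C x * ModularCurve.coeffMap (g : ℚbar →+* ℚbar) t,
      mul_mem (C_mem_coeffSub (S.root_mem_R n_pos hxn (hroot x hxn))) fun i => ?_, ?_⟩
    · rw [ModularCurve.coeffMap_coeff]
      exact ⟨hgE _ (htR i).1, S.mem_A_of_smul_eq hgA (htR i).2⟩
    · rw [eQ_C_mul, hx, map_mul, mul_assoc, ← hσ]
      have := (Igusa.hasExp_const M a⁻¹).mul hH2
      rw [← HahnSeries.C_apply] at this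
      exact this
  · rw [← hσ]
    have := (Igusa.hasExp_const M a⁻¹).mul hH1
    rw [← HahnSeries.C_apply, ← mul_assoc, ← map_mul, inv_mul_cancel₀ (root_ne_zero ha), map_one,
      one_mul] at this
    exact this

end Setting

/-- All that is needed at one place. -/
theorem exists_setting' {p : ℕ} (hp : p.Prime) (hpM : ¬ p ∣ M) (hnp : n ≠ p)
    {A : ValuationSubring ℚbar} (hA : A.LiesOverPrime p) :
    ∃ S : Setting M, S.p = p ∧ S.A = A ∧ (∀ (g : Γℚ), ∀ x ∈ S.E, g x ∈ S.E) ∧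
      (∀ x : ℚbar, x ^ n = 1 → x ∈ S.E) ∧ ∀ χ : Chr M n, S.GoodFam χ := by
  obtain ⟨S, rfl, rfl, hgal, hroot, hfam⟩ := exists_setting hp hpM hnp hA
  refine ⟨S, rfl, rfl, hgal, hroot, fun χ => ?_⟩
  obtain ⟨r, f, hf, hcz⟩ := hfam χ
  refine ⟨r, f, fun i => ?_, hcz⟩
  obtain ⟨h1, h2, δ, s, h3, h4⟩ := hf i
  exact ⟨h1, h2, S.nonVan_of_exists hnp h1 h2 δ h3 h4⟩

omit [NeZero M] [Fact (5 ≤ M)] [Fact (Nat.Prime n)] in
/-- A member of a good family with its expansion at infinity. -/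
theorem Setting.GoodFam.exists_member {S : Setting M} {χ : Chr M n} (h : S.GoodFam χ) :
    ∃ (f : ℍ → ℂ) (s : LaurentSeries ℚbar), IsCharFun χ.toHom f ∧ S.SerIn f ∧ s ∈ coeffSub S.R ∧
      HasExp M f (ModularCurve.coeffMap eQ s) ∧ ∃ i, s.coeff i ∉ S.A.nonunits := by
  obtain ⟨r, f, hf, hcz⟩ := h
  obtain ⟨i, -⟩ := hcz UpperHalfPlane.I
  obtain ⟨h1, h2, h3⟩ := hf i
  obtain ⟨s, hs, hexp⟩ := h2 1
  refine ⟨f i, s, h1, h2, hs, by simpa using hexp, h3 1 (one_mem _) s hexp⟩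

/-- **Inertia at a good prime fixes the characters.** -/
theorem twQ_of_inertia (hn : 5 ≤ n) {p : ℕ} (hp : p.Prime) (hpM : ¬ p ∣ M) (hnp : n ≠ p)
    {A : ValuationSubring ℚbar} (hA : A.LiesOverPrime p) {g : Γℚ}
    (hg : g ∈ A.inertiaSubgroupIn ℚ) (χ : Chr M n) : twQ g χ = χ := by
  obtain ⟨S, rfl, rfl, hgal, hroot, hfam⟩ := exists_setting' (n := n) hp hpM hnp hA
  obtain ⟨hgA, hgres⟩ := (Gal.mem_inertia_iff S.A g).1 hg
  obtain ⟨f, s, hf, hs, hsR, h1, hne⟩ := (hfam χ).exists_member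
  obtain ⟨H, hH, hHs, hH1⟩ := hs.exists_twist hroot (hgal g) hgA hf h1
  refine (S.chr_eq_of_congr hn hnp hfam hf hH hs hHs h1 hH1 (fun i => ?_) hne).symm
  rw [ModularCurve.coeffMap_coeff, ← neg_sub]
  exact neg_mem (hgres _ (hsR i).2)

theorem smul_eq_affine {α : GL (Fin 2) ℝ} {B : Matrix (Fin 2) (Fin 2) ℤ}
    (hα : (α : Matrix (Fin 2) (Fin 2) ℝ) = B.map (Int.cast : ℤ → ℝ)) (hBpos : 0 < B.det)
    {γ : SL(2, ℤ)} {a d : ℕ} {b : ℤ} [NeZero a] [NeZero d]
    (hBeq : B = (γ : Matrix (Fin 2) (Fin 2) ℤ) * !![(a : ℤ), b; 0, (d : ℤ)]) (τ : ℍ) :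
    α • τ = γ • affine a b d τ := by
  have hdet : 0 < α.det.val := by
    rw [Matrix.GeneralLinearGroup.val_det_apply, hα]
    rw [← Int.cast_det]
    exact_mod_cast hBpos
  apply UpperHalfPlane.ext
  rw [UpperHalfPlane.coe_smul_of_det_pos hdet, Kummer.Poincare.coe_smul_apply, Igusa.coe_affine]
  simp only [UpperHalfPlane.num, UpperHalfPlane.denom, hα]
  rw [hBeq]
  have hd0 : (d : ℂ) ≠ 0 := Nat.cast_ne_zero.2 (NeZero.ne d)
  simp [Matrix.mul_apply, Fin.sum_univ_two]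
  rw [mul_div_assoc', mul_div_assoc', div_add' _ _ _ hd0, div_add' _ _ _ hd0,
    div_div_div_cancel_right₀ hd0]
  congr 1 <;> ring

section Hecke

variable {p : ℕ} (hp : p.Prime) (hpM : ¬ p ∣ M)

omit [Fact (5 ≤ M)] [Fact (Nat.Prime n)] in
/-- Roots of unity of order `pM` give the expansions at level `pM`. -/
theorem Setting.exists_series_intMat {S : Setting M} {χ : Chr M n} {f : ℍ → ℂ}
    (_hf : IsCharFun χ.toHom f) (hs : S.SerIn f) (α : GL (Fin 2) ℝ)
    {B : Matrix (Fin 2) (Fin 2) ℤ} (hα : (α : Matrix (Fin 2) (Fin 2) ℝ) = B.map (Int.cast : ℤ → ℝ))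
    (hB : B.det = S.p) : ∃ T ∈ coeffSub S.R,
      HasExp (S.p * M) (fun τ => f (α • τ)) (ModularCurve.coeffMap eQ T) := by
  have hBpos : 0 < B.det := by rw [hB]; exact_mod_cast S.hp.pos
  obtain ⟨γ, a, b, d, ha, hd, had, hBeq⟩ := Kummer.MeroH.exists_sl_mul_upper B hBpos
  lift a to ℕ using ha.le
  lift d to ℕ using hd.le
  have : NeZero a := ⟨by omega⟩
  have : NeZero d := ⟨by omega⟩
  have : NeZero (a * a) := ⟨mul_ne_zero (NeZero.ne a) (NeZero.ne a)⟩
  have had' : a * d = S.p := by exact_mod_cast had.trans hB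
  obtain ⟨s, hsR, hexp⟩ := hs γ
  have hact : ∀ τ : ℍ, α • τ = γ • affine a b d τ := smul_eq_affine hα hBpos hBeq
  set c : ℂˣ := Units.mk0 (Complex.exp (2 * Real.pi * Complex.I * b / (d * M)))
    (Complex.exp_ne_zero _) with hc
  have hdM : (c : ℂ) ^ (d * M) = 1 := by
    rw [hc, Units.val_mk0, ← Complex.exp_nat_mul, Complex.exp_eq_one_iff]
    refine ⟨b, ?_⟩
    have h2 : (d : ℂ) ≠ 0 := Nat.cast_ne_zero.2 (NeZero.ne d)
    have h3 : (M : ℂ) ≠ 0 := Nat.cast_ne_zero.2 (NeZero.ne M)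
    push_cast
    field_simp
  have hdM0 : 0 < d * M := Nat.mul_pos (NeZero.pos d) (NeZero.pos M)
  obtain ⟨x, hx⟩ := exists_eQ_eq (z := (c : ℂ))
    (IsAlgebraic.of_pow hdM0 (by rw [hdM]; exact isAlgebraic_one))
  have hxd : x ^ (d * M) = 1 := eQ.injective (by rw [map_pow, hx, hdM, map_one])
  have hxR : ∀ y : ℚbar, y ^ (d * M) = 1 → y ∈ S.R := fun y hy => by
    refine S.root_mem_R hdM0 hy (S.root_mem y ?_)
    rw [show S.p * M * S.N₀ = d * M * (a * S.N₀) by rw [← had']; ring, pow_mul, hy, one_pow]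
  have hx0 : x ≠ 0 := fun h0 => by
    rw [h0, zero_pow hdM0.ne'] at hxd
    exact zero_ne_one hxd
  refine ⟨ModularCurve.qExpand ℚbar (a * a) (twist (Units.mk0 x hx0) s), fun i => ?_, ?_⟩
  · by_cases hdvd : ((a * a : ℕ) : ℤ) ∣ i
    · obtain ⟨j, rfl⟩ := hdvd
      rw [ModularCurve.qExpand_coeff_mul, Igusa.twist_coeff, Units.val_zpow_eq_zpow_val,
        Units.val_mk0]
      refine mul_mem (hxR _ ?_) (hsR j)
      rw [← zpow_natCast, ← zpow_mul, mul_comm, zpow_mul, zpow_natCast, hxd, one_zpow]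
    · rw [ModularCurve.qExpand_coeff_of_not_dvd _ _ hdvd]
      exact zero_mem _
  · have e : Units.map (eQ : ℚbar →* ℂ) (Units.mk0 x hx0) = c := Units.ext hx
    rw [ModularCurve.coeffMap_qExpand, Igusa.coeffMap_twist, e]
    have h := hexp.comp_affine a b d (H := S.p * M) (a * a) c fun τ => by
      simp only [Function.Periodic.qParam, c, Units.val_mk0, ← Complex.exp_nat_mul,
        ← Complex.exp_add, Igusa.coe_affine, ← had', Nat.cast_mul]
      congr 1
      have h1 : (a : ℂ) ≠ 0 := Nat.cast_ne_zero.2 (NeZero.ne a)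
      have h2 : (d : ℂ) ≠ 0 := Nat.cast_ne_zero.2 (NeZero.ne d)
      have h3 : (M : ℂ) ≠ 0 := Nat.cast_ne_zero.2 (NeZero.ne M)
      push_cast
      field_simp
      ring
    rw [show (fun τ => f (α • τ)) = (fun τ => f (γ • τ)) ∘ affine a b d from
      funext fun τ => by rw [Function.comp_apply, hact τ]]
    exact h

omit [NeZero M] [Fact (5 ≤ M)] [Fact n.Prime] in
/-- Descent of an integral expansion to width `M`. -/
theorem exists_descend [NeZero M] [NeZero p] {R : Subring ℚbar} {g : ℍ → ℂ} {U : LaurentSeries ℚbar}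
    (hUR : U ∈ coeffSub R) (hU : HasExp (p * M) g (ModularCurve.coeffMap eQ U))
    {T : LaurentSeries ℂ} (hT : HasExp M g T) :
    ∃ t ∈ coeffSub R, ModularCurve.coeffMap eQ t = T ∧ ModularCurve.qExpand ℚbar p t = U := by
  have e : ModularCurve.coeffMap eQ U = ModularCurve.qExpand ℂ p T :=
    hU.unique (LevelM.hasExp_expand hT p (mul_comm M p))
  have hk : ∀ k : ℤ, eQ (U.coeff ((p : ℤ) * k)) = T.coeff k := fun k => by
    rw [← ModularCurve.coeffMap_coeff, e, ModularCurve.qExpand_coeff_mul]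
  let t : LaurentSeries ℚbar := ⟨fun k => U.coeff ((p : ℤ) * k),
    T.isPWO_support.mono fun k hk' => by
    rw [HahnSeries.mem_support, ← hk k]
    exact fun h0 => hk' (eQ.injective (h0.trans (map_zero eQ).symm))⟩
  have ht : ModularCurve.coeffMap eQ t = T := by
    ext k
    rw [ModularCurve.coeffMap_coeff]
    exact hk k
  refine ⟨t, fun k => hUR _, ht, coeffMap_eQ_injective ?_⟩
  rw [ModularCurve.coeffMap_qExpand, ht, e]

theorem affine_one_eq_zpow (j : ℤ) (τ : ℍ) :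
    affine 1 j 1 τ = (ModularGroup.T ^ j : SL(2, ℤ)) • τ := by
  rw [modular_T_zpow_smul]
  apply UpperHalfPlane.ext
  rw [UpperHalfPlane.coe_vadd, Igusa.coe_affine]
  simp [add_comm]

omit [NeZero M] [Fact (5 ≤ M)] [Fact (Nat.Prime n)] in
/-- A function with character is `1`-periodic. -/
theorem IsCharFun.periodic_one {χ : Chr M n} {f : ℍ → ℂ} (hf : IsCharFun χ.toHom f) (j : ℤ)
    (τ : ℍ) : f (affine 1 j 1 τ) = f τ := by
  have hmem : (ModularGroup.T ^ j : SL(2, ℤ)) ∈ sgnGamma1 M :=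
    mem_sgnGamma1_iff_zmod.2 (Or.inl (by simp [ModularGroup.coe_T_zpow]))
  have h1 := hf.map_smul ⟨_, hmem⟩ τ
  rw [χ.ellPar ⟨_, hmem⟩ (by simp [ModularGroup.coe_T_zpow, Matrix.trace_fin_two]), Units.val_one,
    one_mul] at h1
  rw [affine_one_eq_zpow]
  exact h1

/-- **The congruence relation.** -/
theorem chrT_eq_of_frobenius [NeZero n] (hn : 5 ≤ n) (hnp : n ≠ p) {A : ValuationSubring ℚbar}
    (hA : A.LiesOverPrime p) {F : Γℚ} (hF : A.IsFrobeniusAt F p) (χ : Chr M n) :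
    chrT hp hpM χ = twQ F χ * twQ F⁻¹ (chrD (GammaH.primeUnit hp hpM) χ) ^ p := by
  classical
  have : NeZero p := ⟨hp.ne_zero⟩
  have : Fact p.Prime := ⟨hp⟩
  have : NeZero (p * p) := ⟨mul_ne_zero hp.ne_zero hp.ne_zero⟩
  obtain ⟨S, rfl, rfl, hgal, hroot, hfam⟩ := exists_setting' (n := n) hp hpM hnp hA
  obtain ⟨hFA, hFres⟩ := (Gal.isFrobeniusAt_iff S.A F S.p).1 hF
  have hFA' : F⁻¹ • S.A = S.A := by
    conv_lhs => rw [← hFA, inv_smul_smul]
  obtain ⟨f, s, hf, hs, hsR, h1, hsne⟩ := (hfam χ).exists_member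
  set u := GammaH.primeUnit hp hpM
  set δ : SL(2, ℤ) := (deltaOf M u : SL(2, ℤ)) with hδ
  have hf2 := hf.comp_gamma0 (deltaOf M u)
  rw [GammaH.unitD_deltaOf] at hf2
  have hs2 := hs.comp δ
  obtain ⟨w, hwR, hw⟩ := hs2 1
  have hwne : ∃ i, w.coeff i ∉ S.A.nonunits := by
    refine S.nonVan_of_exists hnp hf2 hs2 δ⁻¹ (s := s) ?_ hsne 1 (one_mem _) w hw
    simpa [hδ] using h1
  obtain ⟨H₁, hH1, hH1s, hH1e⟩ := hs.exists_twist hroot (hgal F) hFA hf h1
  obtain ⟨H₂, hH2, hH2s, hH2e⟩ := hs2.exists_twist hroot (hgal F⁻¹) hFA' hf2 (s := w)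
    (by simpa using hw)
  have hP : IsCharFun (twQ F χ * twQ F⁻¹ (chrD u χ) ^ S.p).toHom (H₁ * H₂ ^ S.p) :=
    (hH1.mul (hH2.pow S.p)).congr (by rw [Chr.toHom_mul, toHom_pow])
  have hPe : HasExp M (H₁ * H₂ ^ S.p) (ModularCurve.coeffMap eQ
      (ModularCurve.coeffMap (F : ℚbar →+* ℚbar) s *
        ModularCurve.coeffMap ((F⁻¹ : Γℚ) : ℚbar →+* ℚbar) w ^ S.p)) := by
    have h := mem_QS.1 (mul_mem (show (_, _) ∈ QS M from hH1e)
      (pow_mem (show (_, _) ∈ QS M from hH2e) S.p))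
    simp only [Prod.pow_mk, Prod.mk_mul_mk] at h
    rw [← map_pow (ModularCurve.coeffMap eQ), ← map_mul] at h
    exact h
  -- the product
  have hN := hf.heckeProd_isCharFun hp hpM
  have hNser : ∀ γ : SL(2, ℤ), ∃ U ∈ coeffSub S.R,
      HasExp (S.p * M) (fun τ => heckeProd (M := M) hp hpM f (γ • τ))
        (ModularCurve.coeffMap eQ U) := by
    intro γ
    choose B hBd hB using fun x => exists_repT_int (M := M) hp hpM x γ
    choose T hTR hT using fun x => Setting.exists_series_intMat hf hs _ (hB x) (hBd x)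
    refine ⟨∏ x, T x, prod_mem fun x _ => hTR x, ?_⟩
    have h2 := mem_QS.1 (Subring.prod_mem (QS (S.p * M)) (t := Finset.univ) fun x _ =>
      (show ((fun τ => f ((repT (N := M) hp hpM x * toGLR γ) • τ)),
        ModularCurve.coeffMap eQ (T x)) ∈ QS (S.p * M) from hT x))
    rw [Prod.fst_prod, Prod.snd_prod, ← map_prod] at h2
    convert h2 using 1
    funext τ
    rw [Finset.prod_apply]
    simp only [heckeProd, mul_smul]
    rfl
  have hNs : S.SerIn (heckeProd (M := M) hp hpM f) := fun γ => by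
    obtain ⟨U, hUR, hU⟩ := hNser γ
    obtain ⟨T, hT⟩ := hN.exists_ser γ
    obtain ⟨t, htR, rfl, -⟩ := exists_descend hUR hU hT
    exact ⟨t, htR, hT⟩
  -- roots of unity of order `pM`
  set h := S.p * M with hh
  have hz : ∀ j : ℤ, ∃ x : ℚbarˣ, eQ x = ex ((j : ℂ) / h) ∧ (x : ℚbar) ^ h = 1 := by
    intro j
    have e : ex ((j : ℂ) / h) ^ h = 1 := by
      rw [ex, ← Complex.exp_nat_mul, Complex.exp_eq_one_iff]
      refine ⟨j, ?_⟩
      have : (h : ℂ) ≠ 0 := Nat.cast_ne_zero.2 (NeZero.ne h)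
      field_simp
    obtain ⟨x, hx⟩ := exists_eQ_eq (IsAlgebraic.of_pow (NeZero.pos h) (e.symm ▸ isAlgebraic_one))
    refine ⟨Units.mk0 x fun h0 => Complex.exp_ne_zero _ (hx.symm.trans (by rw [h0, map_zero])), hx,
      eQ.injective ?_⟩
    rw [map_pow, Units.val_mk0, hx, e, map_one]
  choose x hx hxh using hz
  set z : ℤ → ℂˣ := fun j => Units.map (eQ : ℚbar →* ℂ) (x j) with hzdef
  have hzv : ∀ j, (z j : ℂ) = ex ((j : ℂ) / h) := hx
  have hper : ∀ (j i : ℤ), s.coeff i = 0 ∨ (((x j) ^ i : ℚbarˣ) : ℚbar) ^ S.p = 1 := by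
    intro j i
    have hc : ∀ τ : ℍ, qP (M : ℝ) (affine 1 j 1 τ : ℂ)
        = ((z j ^ S.p : ℂˣ) : ℂ) * qP (M : ℝ) τ ^ 1 := fun τ => by
      rw [Units.val_pow_eq_pow_val, hzv]
      simp only [Function.Periodic.qParam, Igusa.coe_affine, ex, pow_one, ← Complex.exp_nat_mul,
        ← Complex.exp_add, hh]
      congr 1
      have h3 : (M : ℂ) ≠ 0 := Nat.cast_ne_zero.2 (NeZero.ne M)
      have h4 : (S.p : ℂ) ≠ 0 := Nat.cast_ne_zero.2 hp.ne_zero
      push_cast
      field_simp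
      ring
    have e := h1.comp_affine 1 j 1 (H := M) 1 (z j ^ S.p) hc
    rw [show f ∘ affine 1 j 1 = f from funext (hf.periodic_one j),
      ModularCurve.qExpand_one_apply] at e
    have e' := congrArg (fun y : LaurentSeries ℂ => y.coeff i) (e.unique h1)
    simp only [Igusa.twist_coeff, ModularCurve.coeffMap_coeff] at e'
    rcases eq_or_ne (s.coeff i) 0 with h0 | h0
    · exact Or.inl h0
    · refine Or.inr (eQ.injective ?_)
      have h5 : (((z j ^ S.p) ^ i : ℂˣ) : ℂ) = 1 :=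
        mul_right_cancel₀ ((map_ne_zero eQ).2 h0) (e'.trans (one_mul _).symm)
      rw [map_one, map_pow, ← h5, ← zpow_natCast (z j), ← zpow_mul, mul_comm, zpow_mul,
        zpow_natCast, Units.val_pow_eq_pow_val]
      congr 1
      exact (congrArg Units.val (map_zpow (Units.map (eQ : ℚbar →* ℂ)) (x j) i))
  -- the expansion at infinity of the product
  have hqI : ∀ τ : ℍ, qP (M : ℝ) (affine S.p 0 1 τ : ℂ)
      = ((1 : ℂˣ) : ℂ) * qP (h : ℝ) τ ^ (S.p * S.p) := fun τ => by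
    simp only [Function.Periodic.qParam, Igusa.coe_affine, Units.val_one, one_mul,
      ← Complex.exp_nat_mul, hh]
    congr 1
    have h3 : (M : ℂ) ≠ 0 := Nat.cast_ne_zero.2 (NeZero.ne M)
    have h4 : (S.p : ℂ) ≠ 0 := Nat.cast_ne_zero.2 hp.ne_zero
    push_cast
    field_simp
    ring
  have eI := (show HasExp M (fun τ => f (δ • τ)) (ModularCurve.coeffMap eQ w) by
    simpa using hw).comp_affine S.p 0 1 (H := h) (S.p * S.p) 1 hqI
  have hqj : ∀ (j : ℤ) (τ : ℍ), qP (M : ℝ) (affine 1 j S.p τ : ℂ)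
      = (z j : ℂ) * qP (h : ℝ) τ ^ 1 := fun j τ => by
    rw [hzv]
    simp only [Function.Periodic.qParam, Igusa.coe_affine, ex, pow_one, ← Complex.exp_add, hh]
    congr 1
    have h3 : (M : ℂ) ≠ 0 := Nat.cast_ne_zero.2 (NeZero.ne M)
    have h4 : (S.p : ℂ) ≠ 0 := Nat.cast_ne_zero.2 hp.ne_zero
    push_cast
    field_simp
    ring
  have ej := fun j : ℤ => h1.comp_affine 1 j S.p (H := h) 1 (z j) (hqj j)
  set U : LaurentSeries ℚbar := ModularCurve.qExpand ℚbar (S.p * S.p) w *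
    ∏ j : ZMod S.p, twist (x (j.val : ℤ)) s with hUdef
  have hUexp : HasExp h (heckeProd (M := M) hp hpM f) (ModularCurve.coeffMap eQ U) := by
    have h2 := mem_QS.1 (Subring.prod_mem (QS h) (t := Finset.univ) fun (j : ZMod S.p) _ =>
      (show (_, _) ∈ QS h from ej (j.val : ℤ)))
    rw [Prod.fst_prod, Prod.snd_prod] at h2
    convert eI.mul h2 using 1
    · funext τ
      rw [heckeProd_eq, Pi.mul_apply, Finset.prod_apply]
      rfl
    · rw [hUdef, map_mul, map_prod, ModularCurve.coeffMap_qExpand, Igusa.twist_one_apply]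
      refine congrArg _ (Finset.prod_congr rfl fun j _ => ?_)
      rw [Igusa.coeffMap_twist, ModularCurve.qExpand_one_apply]
  obtain ⟨T, hT⟩ := hN.exists_ser 1
  simp only [one_smul] at hT
  have hxR : ∀ (j i : ℤ), (((x j) ^ i : ℚbarˣ) : ℚbar) ∈ S.R := fun j i => by
    have hy : (((x j) ^ i : ℚbarˣ) : ℚbar) ^ h = 1 := by
      rw [Units.val_zpow_eq_zpow_val, ← zpow_natCast, ← zpow_mul, mul_comm, zpow_mul, zpow_natCast,
        hxh, one_zpow]
    refine S.root_mem_R (NeZero.pos h) hy (S.root_mem _ ?_)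
    rw [pow_mul, ← hh, hy, one_pow]
  have hUR : U ∈ coeffSub S.R := by
    refine mul_mem (fun i => ?_) (prod_mem fun j _ => fun i => ?_)
    · by_cases hd : ((S.p * S.p : ℕ) : ℤ) ∣ i
      · obtain ⟨l, rfl⟩ := hd
        rw [ModularCurve.qExpand_coeff_mul]
        exact hwR l
      · rw [ModularCurve.qExpand_coeff_of_not_dvd _ _ hd]
        exact zero_mem _
    · rw [Igusa.twist_coeff]
      exact mul_mem (hxR _ i) (hsR i)
  obtain ⟨t, htR, htT, htU⟩ := exists_descend hUR hUexp hT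
  -- reduce
  have : CharP (IsLocalRing.ResidueField S.A) S.p := by
    refine (CharP.charP_iff_prime_eq_zero hp).2 ?_
    rw [← map_natCast (IsLocalRing.residue S.A), IsLocalRing.residue_eq_zero_iff,
      ← S.A.coe_mem_nonunits_iff]
    simpa [ValuationSubring.LiesOverPrime] using S.hA
  set π := IsLocalRing.residue S.A
  obtain ⟨sb, hsb⟩ := exists_red (π := π) fun i => (hsR i).2
  obtain ⟨wb, hwb⟩ := exists_red (π := π) fun i => (hwR i).2
  obtain ⟨tb, htb⟩ := exists_red (π := π) fun i => (htR i).2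
  obtain ⟨vb, hvb⟩ := exists_red (π := π)
    (y := ModularCurve.coeffMap ((F⁻¹ : Γℚ) : ℚbar →+* ℚbar) w)
    fun i => S.mem_A_of_smul_eq hFA' (hwR i).2
  have hFs : Red S.A π (ModularCurve.coeffMap (F : ℚbar →+* ℚbar) s)
      (ModularCurve.coeffMap (frobenius _ S.p) sb) := fun i => by
    obtain ⟨hi, hπi⟩ := hsb i
    refine ⟨S.mem_A_of_smul_eq hFA hi, ?_⟩
    rw [ModularCurve.coeffMap_coeff (frobenius _ S.p), ← hπi, frobenius_def, ← map_pow]
    exact (residue_eq_iff S.A _ (pow_mem hi _)).2 (hFres _ hi)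
  have hvw : ModularCurve.coeffMap (frobenius _ S.p) vb = wb := by
    ext i
    obtain ⟨hi, hπi⟩ := hvb i
    obtain ⟨hi', hπi'⟩ := hwb i
    rw [ModularCurve.coeffMap_coeff, ← hπi, ← hπi', frobenius_def, ← map_pow]
    refine Eq.symm ((residue_eq_iff S.A _ (pow_mem hi _)).2 ?_)
    have h6 := hFres _ hi
    rw [ModularCurve.coeffMap_coeff] at h6 ⊢
    simpa using h6
  have htwist : ∀ j : ℤ, Red S.A π (twist (x j) s) sb := fun j i => by
    obtain ⟨hi, hπi⟩ := hsb i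
    have hm : (twist (x j) s).coeff i ∈ S.A := by
      rw [Igusa.twist_coeff]; exact mul_mem (hxR j i).2 hi
    refine ⟨hm, ?_⟩
    rw [← hπi, residue_eq_iff, Igusa.twist_coeff]
    rcases hper j i with h0 | h0
    · simp [h0]
    · rw [← sub_one_mul]
      refine Gal.mul_mem_nonunits_left S.A ?_ hi
      have e1 : π ⟨_, (hxR j i).2⟩ ^ S.p = 1 := by
        rw [← map_pow, ← map_one π]
        exact congrArg π (Subtype.ext h0)
      have e2 : π ⟨_, (hxR j i).2⟩ = π 1 := by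
        rw [map_one, ← sub_eq_zero]
        refine eq_zero_of_pow_eq_zero (n := S.p) ?_
        rw [sub_pow_char, e1, one_pow, sub_self]
      exact (residue_eq_iff S.A _ _).1 e2
  have hUred : Red S.A π U (ModularCurve.qExpand _ (S.p * S.p) wb * sb ^ S.p) := by
    have h2 := Red.prod Finset.univ fun (j : ZMod S.p) _ => htwist (j.val : ℤ)
    rw [Finset.prod_const, Finset.card_univ, ZMod.card] at h2
    exact (Red.qExpand hwb _).mul h2
  have htb2 := Red.qExpand htb S.p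
  rw [htU] at htb2
  have htb' : tb = ModularCurve.qExpand _ S.p wb * ModularCurve.coeffMap (frobenius _ S.p) sb := by
    refine ModularCurve.qExpand_injective S.p ?_
    rw [htb2.unique hUred, map_mul, ModularCurve.qExpand_qExpand, qExpand_frobenius]
  have hPred : Red S.A π (ModularCurve.coeffMap (F : ℚbar →+* ℚbar) s *
      ModularCurve.coeffMap ((F⁻¹ : Γℚ) : ℚbar →+* ℚbar) w ^ S.p) tb := by
    have h2 := hFs.mul (hvb.pow S.p)
    rwa [← qExpand_frobenius S.p vb, hvw, mul_comm (ModularCurve.coeffMap (frobenius _ S.p) sb),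
      ← htb'] at h2
  have hnz : ∀ {y : LaurentSeries ℚbar} {yb : LaurentSeries (IsLocalRing.ResidueField S.A)},
      Red S.A π y yb → ((∃ i, y.coeff i ∉ S.A.nonunits) ↔ yb ≠ 0) := fun {y yb} hy => by
    rw [Ne, hy.eq_zero_iff IsLocalRing.residue_surjective, not_forall]
    simp only [ValuationSubring.mem_nonunits_iff]
  refine S.chr_eq_of_congr hn hnp hfam hN hP hNs (hH1s.mul (hH2s.pow S.p))
    (s₁ := t) (by rw [htT]; exact hT) hPe (fun i => ?_) ((hnz htb).2 ?_)
  · obtain ⟨hi, hπi⟩ := htb i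
    obtain ⟨hi', hπi'⟩ := hPred i
    exact (residue_eq_iff S.A hi hi').1 (hπi.trans hπi'.symm)
  · rw [htb']
    refine mul_ne_zero ((map_ne_zero_iff _ (ModularCurve.qExpand_injective S.p)).2
      ((hnz hwb).1 hwne)) fun h0 => (hnz hsb).1 hsne ?_
    ext i
    have := congrArg (fun y => HahnSeries.coeff y i) h0
    simp only [ModularCurve.coeffMap_coeff, HahnSeries.coeff_zero, frobenius_def] at this
    exact eq_zero_of_pow_eq_zero this

end Hecke

end Fermat.Agent.DeligneSerre
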