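import Fermat.Agent.DeligneSerre.GaloisAction

/-!
# Integral expansions at a place of `ℚbar`

A `Setting` fixes a good prime, a place over it and a field of coefficients; `GoodFam χ` says that
`χ` has a family of functions without common zero, integral and nowhere zero modulo the place.
-/

set_option autoImplicit false

noncomputable section

open UpperHalfPlane hiding I
open scoped MatrixGroups

namespace Fermat.Agent.DeligneSerre

open Fermat.Agent.Igusa (HasExp)
open Fermat.Agent.LevelM (sgnGamma)

local notation "ℚbar" => AlgebraicClosure ℚ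

/-- Series with all coefficients in a subring. -/
def coeffSub {K : Type} [CommRing K] (R : Subring K) : Subring (LaurentSeries K) where
  carrier := {s | ∀ i, s.coeff i ∈ R}
  zero_mem' i := by simp
  one_mem' i := by
    rcases eq_or_ne i 0 with rfl | hi <;> simp [HahnSeries.coeff_one, *]
  add_mem' hs ht i := by rw [HahnSeries.coeff_add]; exact add_mem (hs i) (ht i)
  neg_mem' hs i := by rw [HahnSeries.coeff_neg]; exact neg_mem (hs i)
  mul_mem' hs ht i := by
    rw [HahnSeries.coeff_mul]
    exact sum_mem fun p _ => mul_mem (hs p.1) (ht p.2)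

/-- A place over a good prime, a field of coefficients, an auxiliary level. -/
structure Setting (M : ℕ) where
  p : ℕ
  hp : p.Prime
  hpM : ¬ p ∣ M
  A : ValuationSubring ℚbar
  hA : A.LiesOverPrime p
  N₀ : ℕ
  hN₀ : N₀ = 3 ∨ N₀ = 4
  hpN₀ : ¬ p ∣ N₀
  E : IntermediateField ℚ ℚbar
  finE : FiniteDimensional ℚ E
  root_mem : ∀ z : ℚbar, z ^ (p * M * N₀) = 1 → z ∈ E

namespace Setting

variable {M : ℕ} (S : Setting M)

/-- The integers of the coefficient field at the place. -/
def R : Subring ℚbar := S.E.toSubalgebra.toSubring ⊓ S.A.toSubring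

/-- All expansions have coefficients in a given subring. -/
def SerInSub (R : Subring ℚbar) (M : ℕ) (f : ℍ → ℂ) : Prop :=
  ∀ δ : SL(2, ℤ), ∃ s ∈ coeffSub R, HasExp M (fun τ => f (δ • τ)) (ModularCurve.coeffMap eQ s)

/-- Integral expansions at all cusps. -/
def SerIn (f : ℍ → ℂ) : Prop := SerInSub S.R M f

/-- The reduction of the expansion is non zero at all cusps in `±Γ(N₀)`. -/
def NonVan (f : ℍ → ℂ) : Prop :=
  ∀ γ ∈ sgnGamma S.N₀, ∀ s : LaurentSeries ℚbar,
    HasExp M (fun τ => f (γ • τ)) (ModularCurve.coeffMap eQ s) → ∃ i, s.coeff i ∉ S.A.nonunits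

/-- Integral, non vanishing functions with character, without common zero. -/
def GoodFam {n : ℕ} (χ : Chr M n) : Prop :=
  ∃ (r : ℕ) (f : Fin r → ℍ → ℂ), (∀ i, IsCharFun χ.toHom (f i) ∧ S.SerIn (f i) ∧ S.NonVan (f i)) ∧
    ∀ τ, ∃ i, f i τ ≠ 0

end Setting

end Fermat.Agent.DeligneSerre
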